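/-
T16 / SD, piece HAS (helper68): the Hasse invariant in level one.

For a prime `l ≥ 5` and a field `K` of characteristic `l` there is an isobaric polynomial
`a ∈ K[Q, R]` of weight `l - 1` with `a(E₄(q), E₆(q)) = 1` in `K⟦q⟧` (`exists_hasse_field`,
`exists_hasse`).  Proof: by von Staudt--Clausen `B_{l-1} = w / (l b)` with `l ∤ w b`, so
`w • E_{l-1}` has integral `q`-expansion `≡ w` modulo `l`; by the structure theorem `L1` it is an
integral isobaric polynomial in `E₄, E₆, Δ`; reduce modulo `l`, substitute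
`Δ = (E₄³ - E₆²)/1728` and divide by `w`.
-/
import Mathlib
import Fermat.Agent.S16.LevelOneIntegral

set_option autoImplicit false

open UpperHalfPlane ModularForm ModularFormClass EisensteinSeries
open scoped MatrixGroups ModularForm Manifold ArithmeticFunction.sigma

namespace Fermat.Agent.S16.SD.Hasse

open Fermat.Agent.S16 Fermat.Agent.S23

/-! ### von Staudt--Clausen at `l - 1` -/

/-- A finite sum of reciprocals of naturals prime to `l` is a fraction with denominator prime to `l`. -/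
theorem exists_sum_inv_eq (l : ℕ) (hl : l.Prime) (F : Finset ℕ)
    (hF : ∀ q ∈ F, q ≠ 0 ∧ ¬ l ∣ q) :
    ∃ a b : ℤ, ¬ (l : ℤ) ∣ b ∧ ∑ q ∈ F, (1 : ℚ) / q = a / b := by
  classical
  induction F using Finset.induction_on with
  | empty => exact ⟨0, 1, by
      intro h
      have := Int.natCast_dvd_natCast.mp (by simpa using h : ((l : ℕ) : ℤ) ∣ ((1 : ℕ) : ℤ))
      exact hl.one_lt.ne' (Nat.dvd_one.mp this), by simp⟩
  | insert q F hq ih =>
    obtain ⟨a, b, hb, hab⟩ := ih (fun r hr => hF r (Finset.mem_insert_of_mem hr))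
    obtain ⟨hq0, hql⟩ := hF q (Finset.mem_insert_self q F)
    have hb0 : (b : ℚ) ≠ 0 := by
      intro h
      apply hb
      have : b = 0 := by exact_mod_cast h
      rw [this]; exact dvd_zero _
    refine ⟨b + a * q, q * b, ?_, ?_⟩
    · intro h
      have hp : Prime (l : ℤ) := Nat.prime_iff_prime_int.mp hl
      rcases hp.dvd_or_dvd h with h1 | h1
      · exact hql (Int.natCast_dvd_natCast.mp h1)
      · exact hb h1
    · rw [Finset.sum_insert hq, hab]
      have hq0' : (q : ℚ) ≠ 0 := by exact_mod_cast hq0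
      push_cast
      field_simp

/-- von Staudt–Clausen at `l - 1`: `B_{l-1} = w / (l b)` with `l ∤ w`, `l ∤ b`. -/
theorem exists_bernoulli_eq (l : ℕ) (hl : l.Prime) (hl2 : 3 ≤ l) :
    ∃ w b : ℤ, ¬ (l : ℤ) ∣ w ∧ ¬ (l : ℤ) ∣ b ∧ bernoulli (l - 1) = (w : ℚ) / ((l : ℚ) * b) := by
  classical
  obtain ⟨k, hk⟩ : ∃ k, l - 1 = 2 * k := by
    have hodd : Odd l := hl.odd_of_ne_two (by omega)
    obtain ⟨j, hj⟩ := hodd
    exact ⟨j, by omega⟩
  obtain ⟨m, hm⟩ := Bernoulli.vonStaudt_clausen k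
  set S := (Finset.range (2 * k + 2)).filter (fun p => p.Prime ∧ (p - 1) ∣ 2 * k) with hS
  have hlS : l ∈ S := by
    rw [hS, Finset.mem_filter, Finset.mem_range]
    refine ⟨by omega, hl, ?_⟩
    rw [← hk]
  have hsplit : ∑ p ∈ S, (1 : ℚ) / p = 1 / l + ∑ p ∈ S.erase l, (1 : ℚ) / p := by
    rw [← Finset.add_sum_erase S _ hlS]
  obtain ⟨a, b, hb, hab⟩ := exists_sum_inv_eq l hl (S.erase l) (by
    intro q hq
    rw [Finset.mem_erase] at hq
    obtain ⟨hql, hqS⟩ := hq
    rw [hS, Finset.mem_filter] at hqS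
    refine ⟨hqS.2.1.ne_zero, ?_⟩
    intro h
    exact hql ((Nat.prime_dvd_prime_iff_eq hl hqS.2.1).mp h).symm)
  have hb0 : (b : ℚ) ≠ 0 := by
    intro h
    apply hb
    have : b = 0 := by exact_mod_cast h
    rw [this]; exact dvd_zero _
  have hl0 : (l : ℚ) ≠ 0 := by exact_mod_cast hl.ne_zero
  refine ⟨l * b * m - b - l * a, b, ?_, hb, ?_⟩
  · intro h
    apply hb
    have h2 : (l : ℤ) ∣ (l : ℤ) * (b * m - a) := dvd_mul_right _ _
    have h3 : (l : ℤ) ∣ (l : ℤ) * (b * m - a) - ((l : ℤ) * b * m - b - l * a) := dvd_sub h2 h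
    have h4 : (l : ℤ) * (b * m - a) - ((l : ℤ) * b * m - b - l * a) = b := by ring
    rwa [h4] at h3
  · have hB : bernoulli (l - 1) = (m : ℚ) - (1 / l + a / b) := by
      rw [hk, ← hab, ← hsplit]
      linarith [hm]
    rw [hB]
    push_cast
    field_simp
    ring

/-! ### Polynomial plumbing -/

theorem map_aeval_gens {S : Type*} [CommRing S] (P : MvPolynomial (Fin 3) ℤ) :
    PowerSeries.map (Int.castRingHom S) (MvPolynomial.aeval (L1.gens ℤ) P) =
      MvPolynomial.aeval (L1.gens S) (MvPolynomial.map (Int.castRingHom S) P) := by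
  induction P using MvPolynomial.induction_on with
  | C r => simp
  | add p q hp hq => simp only [map_add, hp, hq]
  | mul_X p i hp =>
    simp only [map_mul, hp, MvPolynomial.aeval_X, MvPolynomial.map_X]
    congr 1
    fin_cases i
    · ext n; simp [L1.gens, PowerSeries.coeff_map]
    · ext n; simp [L1.gens, PowerSeries.coeff_map]
    · ext n; simp [L1.gens, PowerSeries.coeff_map]

theorem isWH_map {R S : Type*} [CommRing R] [CommRing S] (ψ : R →+* S) {ι M : Type*}
    [AddCommMonoid M] {w : ι → M}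
    {P : MvPolynomial ι R} {n : M} (hP : MvPolynomial.IsWeightedHomogeneous w P n) :
    MvPolynomial.IsWeightedHomogeneous w (MvPolynomial.map ψ P) n := by
  intro d hd
  apply hP
  intro h
  apply hd
  rw [MvPolynomial.coeff_map, h, map_zero]

theorem isWH_aeval {S : Type*} [CommRing S] {w : Fin 3 → ℕ} {w' : Fin 2 → ℕ}
    (g : Fin 3 → MvPolynomial (Fin 2) S)
    (hg : ∀ i, MvPolynomial.IsWeightedHomogeneous w' (g i) (w i))
    {P : MvPolynomial (Fin 3) S} {n : ℕ} (hP : MvPolynomial.IsWeightedHomogeneous w P n) :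
    MvPolynomial.IsWeightedHomogeneous w' (MvPolynomial.aeval g P) n := by
  rw [MvPolynomial.aeval_def, MvPolynomial.eval₂_eq']
  apply MvPolynomial.IsWeightedHomogeneous.sum
  intro d hd
  have hd' : Finsupp.weight w d = n := hP (MvPolynomial.mem_support_iff.mp hd)
  have h1 : MvPolynomial.IsWeightedHomogeneous w' (∏ i, g i ^ d i) (∑ i, d i • w i) :=
    MvPolynomial.IsWeightedHomogeneous.prod Finset.univ (fun i => g i ^ d i)
      (fun i => d i • w i) (fun i _ => (hg i).pow (d i))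
  have h2 : ∑ i, d i • w i = n := by
    rw [← hd', Finsupp.weight_apply, Finsupp.sum_fintype]
    intro i; simp
  rw [h2] at h1
  simpa using (MvPolynomial.isWeightedHomogeneous_C w' (P.coeff d)).mul h1

/-! ### `E_{l-1}` as an integral polynomial in `E₄, E₆, Δ` -/

/-- The `q`-expansion of `v • E_{l-1}` is integral, `≡ v` modulo `l`, and is an isobaric integral
polynomial in `E₄, E₆, Δ`. -/
theorem exists_int_poly (l : ℕ) (hl : l.Prime) (hl5 : 5 ≤ l) :
    ∃ (P : MvPolynomial (Fin 3) ℤ) (v : ℤ) (Z' : PowerSeries ℤ), ¬ (l : ℤ) ∣ v ∧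
      MvPolynomial.IsWeightedHomogeneous L1.wtsNat P (l - 1) ∧
      MvPolynomial.aeval (L1.gens ℤ) P = PowerSeries.C v + PowerSeries.C (l : ℤ) * Z' := by
  obtain ⟨w, b, hw, hb, hB⟩ := exists_bernoulli_eq l hl (by omega)
  have hk3 : 3 ≤ l - 1 := by omega
  have hk2 : Even (l - 1) := by
    have hodd : Odd l := hl.odd_of_ne_two (by omega)
    obtain ⟨j, hj⟩ := hodd
    exact ⟨j, by omega⟩
  have hw0 : (w : ℂ) ≠ 0 := by
    intro h
    apply hw
    have : w = 0 := by exact_mod_cast h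
    rw [this]; exact dvd_zero _
  have hb0 : (b : ℂ) ≠ 0 := by
    intro h
    apply hb
    have : b = 0 := by exact_mod_cast h
    rw [this]; exact dvd_zero _
  have hl0 : (l : ℂ) ≠ 0 := by exact_mod_cast hl.ne_zero
  set u : ℤ := -2 * ((l - 1 : ℕ) : ℤ) * b with hu
  set F : ModularForm 𝒮ℒ ((l - 1 : ℕ) : ℤ) := (w : ℂ) • E hk3 with hF
  set Zs : PowerSeries ℤ :=
    PowerSeries.mk fun n => if n = 0 then w else (l : ℤ) * (u * (σ (l - 1 - 1) n : ℤ)) with hZs
  have hBC : ((bernoulli (l - 1) : ℚ) : ℂ) = (w : ℂ) / ((l : ℂ) * b) := by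
    rw [hB]; push_cast; rfl
  have hq : qExpansion 1 (F : ℍ → ℂ) = Zs.map (Int.castRingHom ℂ) := by
    have h1 : qExpansion 1 (F : ℍ → ℂ) = (w : ℂ) • qExpansion 1 (E hk3 : ℍ → ℂ) :=
      ModularForm.qExpansion_smul one_pos one_mem_strictPeriods_SL (w : ℂ) (E hk3)
    rw [h1]
    ext n
    rw [PowerSeries.coeff_smul, E_qExpansion_coeff hk3 hk2 n, PowerSeries.coeff_map, hZs,
      PowerSeries.coeff_mk]
    by_cases hn : n = 0
    · simp [hn]
    · rw [if_neg hn, if_neg hn, hBC, hu, smul_eq_mul, eq_intCast]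
      push_cast
      field_simp
  have hR : ∀ i : ℕ, 12 * (i : ℤ) ≤ ((l - 1 : ℕ) : ℤ) →
      (qExpansion 1 (F : ℍ → ℂ)).coeff i ∈ Set.range (Int.castRingHom ℂ) := by
    intro i _
    rw [hq, PowerSeries.coeff_map]
    exact ⟨_, rfl⟩
  obtain ⟨P, hPwh, hPq, -⟩ :=
    L1.exists_mvPolynomial (Int.castRingHom ℂ) ((l - 1 : ℕ) : ℤ) F F.isMF hR
  refine ⟨P, w, PowerSeries.mk fun n => if n = 0 then 0 else u * (σ (l - 1 - 1) n : ℤ), hw,
    L1.isWH_nat hPwh, ?_⟩
  have h2 : PowerSeries.map (Int.castRingHom ℂ) (MvPolynomial.aeval (L1.gens ℤ) P) =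
      PowerSeries.map (Int.castRingHom ℂ) Zs := by
    rw [← hq, hPq]; rfl
  have h3 : MvPolynomial.aeval (L1.gens ℤ) P = Zs := by
    ext n
    have := congrArg (PowerSeries.coeff n) h2
    rw [PowerSeries.coeff_map, PowerSeries.coeff_map] at this
    exact Int.cast_injective this
  rw [h3]
  ext n
  rw [hZs, PowerSeries.coeff_mk, map_add, PowerSeries.coeff_C, PowerSeries.coeff_C_mul,
    PowerSeries.coeff_mk]
  by_cases hn : n = 0
  · simp [hn]
  · simp [hn]

/-! ### Reduction modulo `l` -/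

/-- The substitution `X₂ ↦ (X₀³ - X₁²)/1728`. -/
noncomputable def subst (K : Type*) [Field K] : Fin 3 → MvPolynomial (Fin 2) K :=
  ![MvPolynomial.X 0, MvPolynomial.X 1,
    MvPolynomial.C ((1728 : K)⁻¹) * (MvPolynomial.X 0 ^ 3 - MvPolynomial.X 1 ^ 2)]

theorem isWH_subst (K : Type*) [Field K] (i : Fin 3) :
    MvPolynomial.IsWeightedHomogeneous (![4, 6] : Fin 2 → ℕ) (subst K i) (L1.wtsNat i) := by
  have h0 : MvPolynomial.IsWeightedHomogeneous (![4, 6] : Fin 2 → ℕ)
      (MvPolynomial.X 0 : MvPolynomial (Fin 2) K) 4 :=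
    MvPolynomial.isWeightedHomogeneous_X K _ 0
  have h1 : MvPolynomial.IsWeightedHomogeneous (![4, 6] : Fin 2 → ℕ)
      (MvPolynomial.X 1 : MvPolynomial (Fin 2) K) 6 :=
    MvPolynomial.isWeightedHomogeneous_X K _ 1
  fin_cases i
  · exact h0
  · exact h1
  · have h3 : MvPolynomial.IsWeightedHomogeneous (![4, 6] : Fin 2 → ℕ)
        ((MvPolynomial.X 0 : MvPolynomial (Fin 2) K) ^ 3 - MvPolynomial.X 1 ^ 2) 12 :=
      (h0.pow 3).sub (h1.pow 2)
    exact h3.C_mul _

/-- `1728` is invertible modulo a prime `l ≥ 5`. -/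
theorem c1728_ne_zero {K : Type*} [Field K] (l : ℕ) [Fact l.Prime] [CharP K l] (hl5 : 5 ≤ l) :
    (1728 : K) ≠ 0 := by
  have h : ((1728 : ℕ) : K) ≠ 0 := by
    rw [Ne, CharP.cast_eq_zero_iff K l]
    intro hd
    have hp : l.Prime := Fact.out
    have h2 : l ∣ 2 ^ 6 * 3 ^ 3 := by norm_num; exact hd
    rcases (Nat.Prime.dvd_mul hp).mp h2 with h | h
    · have := (Nat.prime_dvd_prime_iff_eq hp Nat.prime_two).mp (hp.dvd_of_dvd_pow h)
      omega
    · have := (Nat.prime_dvd_prime_iff_eq hp Nat.prime_three).mp (hp.dvd_of_dvd_pow h)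
      omega
  exact_mod_cast h

theorem aeval_subst {K : Type*} [Field K] (l : ℕ) [Fact l.Prime] [CharP K l] (hl5 : 5 ≤ l) :
    (fun i => MvPolynomial.aeval
      ![L1.E4Z.map (Int.castRingHom K), L1.E6Z.map (Int.castRingHom K)] (subst K i)) =
      L1.gens K := by
  have hid := congrArg (PowerSeries.map (Int.castRingHom K)) L1.DeltaZ_identity
  simp only [map_mul, map_sub, map_pow, PowerSeries.map_C] at hid
  have h1728 : (Int.castRingHom K) 1728 = (1728 : K) := by simp
  rw [h1728] at hid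
  funext i
  fin_cases i
  · simp [subst, L1.gens]
  · simp [subst, L1.gens]
  · simp only [subst, L1.gens]
    simp only [Fin.reduceFinMk, Matrix.cons_val, map_mul, MvPolynomial.aeval_C, map_sub, map_pow,
      MvPolynomial.aeval_X, Matrix.cons_val_zero, Matrix.cons_val_one]
    rw [← hid, ← mul_assoc]
    have : (algebraMap K (PowerSeries K)) (1728 : K)⁻¹ * PowerSeries.C (1728 : K) = 1 := by
      change PowerSeries.C (1728 : K)⁻¹ * PowerSeries.C (1728 : K) = 1
      rw [← map_mul, inv_mul_cancel₀ (c1728_ne_zero l hl5), map_one]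
    rw [this, one_mul]

/-- **Hasse invariant.**  For a prime `l ≥ 5` and a field `K` of characteristic `l` there is an
isobaric polynomial `a ∈ K[Q, R]` of weight `l - 1` whose `q`-expansion is `1`. -/
theorem exists_hasse_field (l : ℕ) [Fact l.Prime] (hl5 : 5 ≤ l) (K : Type*) [Field K] [CharP K l] :
    ∃ a : MvPolynomial (Fin 2) K, a.IsWeightedHomogeneous (![4, 6] : Fin 2 → ℕ) (l - 1) ∧
      MvPolynomial.aeval
        ![L1.E4Z.map (Int.castRingHom K), L1.E6Z.map (Int.castRingHom K)] a = 1 := by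
  have hl : l.Prime := Fact.out
  obtain ⟨P, v, Z', hv, hPwh, hPq⟩ := exists_int_poly l hl hl5
  have hv0 : ((v : ℤ) : K) ≠ 0 := by
    rw [Ne, CharP.intCast_eq_zero_iff K l]
    exact hv
  set Pb : MvPolynomial (Fin 3) K := MvPolynomial.map (Int.castRingHom K) P with hPb
  have h1 : MvPolynomial.aeval (L1.gens K) Pb = PowerSeries.C ((v : ℤ) : K) := by
    rw [hPb, ← map_aeval_gens, hPq]
    ext n
    rw [PowerSeries.coeff_map, map_add, PowerSeries.coeff_C_mul, PowerSeries.coeff_C,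
      PowerSeries.coeff_C]
    by_cases hn : n = 0
    · simp [hn]
    · simp [hn]
  refine ⟨MvPolynomial.C (((v : ℤ) : K)⁻¹) * MvPolynomial.aeval (subst K) Pb, ?_, ?_⟩
  · exact (isWH_aeval (subst K) (isWH_subst K) (isWH_map _ hPwh)).C_mul _
  · rw [map_mul, MvPolynomial.aeval_C]
    have h2 : MvPolynomial.aeval
        ![L1.E4Z.map (Int.castRingHom K), L1.E6Z.map (Int.castRingHom K)]
        (MvPolynomial.aeval (subst K) Pb) = MvPolynomial.aeval (L1.gens K) Pb := by
      have := MvPolynomial.comp_aeval (R := K) (f := subst K)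
        (MvPolynomial.aeval (R := K)
          ![L1.E4Z.map (Int.castRingHom K), L1.E6Z.map (Int.castRingHom K)])
      rw [aeval_subst l hl5] at this
      exact AlgHom.congr_fun this Pb
    rw [h2, h1]
    change PowerSeries.C (((v : ℤ) : K)⁻¹) * PowerSeries.C ((v : ℤ) : K) = 1
    rw [← map_mul, inv_mul_cancel₀ hv0, map_one]

/-- The case `K = ZMod l`. -/
theorem exists_hasse (l : ℕ) [Fact l.Prime] (hl5 : 5 ≤ l) :
    ∃ a : MvPolynomial (Fin 2) (ZMod l), a.IsWeightedHomogeneous (![4, 6] : Fin 2 → ℕ) (l - 1) ∧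
      MvPolynomial.aeval
        ![L1.E4Z.map (Int.castRingHom (ZMod l)), L1.E6Z.map (Int.castRingHom (ZMod l))] a = 1 :=
  exists_hasse_field l hl5 (ZMod l)

end Fermat.Agent.S16.SD.Hasse
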