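/-
T16 / SD (Swinnerton-Dyer, `l ≥ 5`), core algebra.  Mathlib only.

`S = K[X₀, X₁]` (`X₀ = Q = E₄`, `X₁ = R = E₆`), weights `![4, 6]`.
* `dS`  : the Serre derivation `∂Q = -4R`, `∂R = -6Q²`;  `eul` : the Euler derivation.
* `ker_tau_le` : a polynomial vanishing under `Q ↦ t⁴, R ↦ t⁶` is divisible by `Q³ - R²`.
* `inj_of_isobaric` : the evaluation at a pair of power series `(Q, R)` with constant terms `1`
  and `Q³ - R² ≠ 0` is injective on isobaric polynomials.
* `theta_ev` : `12 θ(ev g) = P · ev(E g) + ev(∂ g)` from Ramanujan's differential equations.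
-/
import Mathlib

set_option autoImplicit false

namespace Fermat.Agent.S16.SD

open MvPolynomial

noncomputable section

variable {K : Type*} [Field K]

local notation "SK" => MvPolynomial (Fin 2) K

theorem weight_eq (d : Fin 2 →₀ ℕ) :
    Finsupp.weight (![4, 6] : Fin 2 → ℕ) d = d 0 * 4 + d 1 * 6 := by
  simp [Finsupp.weight_apply, Finsupp.sum_fintype, Fin.sum_univ_two]

/-- the Serre derivation on `K[Q, R]`: `∂Q = -4R`, `∂R = -6Q²` -/
def dS : Derivation K SK SK := mkDerivation K ![-4 * X 1, -6 * X 0 ^ 2]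

/-- the Euler derivation on `K[Q, R]`: `EQ = 4Q`, `ER = 6R` -/
def eul : Derivation K SK SK := mkDerivation K ![4 * X 0, 6 * X 1]

@[simp] theorem dS_X0 : (dS (X 0 : SK)) = -4 * X 1 := by simp [dS, mkDerivation_X]
@[simp] theorem dS_X1 : (dS (X 1 : SK)) = -6 * X 0 ^ 2 := by simp [dS, mkDerivation_X]
@[simp] theorem eul_X0 : (eul (X 0 : SK)) = 4 * X 0 := by simp [eul, mkDerivation_X]
@[simp] theorem eul_X1 : (eul (X 1 : SK)) = 6 * X 1 := by simp [eul, mkDerivation_X]

theorem dS_apply (g : SK) :
    dS g = -4 * X 1 * pderiv 0 g + -6 * X 0 ^ 2 * pderiv 1 g := by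
  have h : (dS : Derivation K SK SK) =
      (-4 * X 1 : SK) • pderiv 0 + (-6 * X 0 ^ 2 : SK) • pderiv 1 := by
    apply derivation_ext
    intro i
    fin_cases i <;> simp [pderiv_X]
  rw [h]
  simp

theorem eul_apply (g : SK) :
    eul g = 4 * X 0 * pderiv 0 g + 6 * X 1 * pderiv 1 g := by
  have h : (eul : Derivation K SK SK) =
      (4 * X 0 : SK) • pderiv 0 + (6 * X 1 : SK) • pderiv 1 := by
    apply derivation_ext
    intro i
    fin_cases i <;> simp [pderiv_X]
  rw [h]
  simp

theorem eul_monomial (d : Fin 2 →₀ ℕ) (r : K) :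
    eul (monomial d r : SK) = ((d 0 * 4 + d 1 * 6 : ℕ) : SK) * monomial d r := by
  rw [eul_apply, mul_assoc, mul_assoc, X_mul_pderiv_monomial, X_mul_pderiv_monomial]
  simp only [nsmul_eq_mul]
  push_cast
  ring

/-- Euler's identity for isobaric polynomials. -/
theorem eul_of_isobaric {g : SK} {k : ℕ}
    (hg : IsWeightedHomogeneous (![4, 6] : Fin 2 → ℕ) g k) : eul g = (k : SK) * g := by
  induction hg using IsWeightedHomogeneous.induction_on with
  | zero => simp
  | add p q hp hq ihp ihq => rw [map_add, ihp, ihq, mul_add]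
  | monomial d r hr => rw [eul_monomial, ← weight_eq, hr]

theorem isobaric_X1_mul_pderiv0 (d : Fin 2 →₀ ℕ) (r : K) :
    IsWeightedHomogeneous (![4, 6] : Fin 2 → ℕ) (X 1 * pderiv 0 (monomial d r) : SK)
      (Finsupp.weight (![4, 6] : Fin 2 → ℕ) d + 2) := by
  rw [pderiv_monomial]
  by_cases h : d 0 = 0
  · simp only [h, Nat.cast_zero, mul_zero, monomial_zero, mul_zero]
    exact isWeightedHomogeneous_zero K _ _
  · have h1 := isWeightedHomogeneous_X K (![4, 6] : Fin 2 → ℕ) (1 : Fin 2)
    have h2 : IsWeightedHomogeneous (![4, 6] : Fin 2 → ℕ)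
        (monomial (d - Finsupp.single 0 1) (r * (d 0 : K)) : SK)
        (Finsupp.weight (![4, 6] : Fin 2 → ℕ) d - 4) := by
      apply isWeightedHomogeneous_monomial
      rw [weight_eq, weight_eq]
      simp only [Finsupp.coe_tsub, Pi.sub_apply, Finsupp.single_eq_same, ne_eq, one_ne_zero,
        not_false_eq_true, Finsupp.single_eq_of_ne, tsub_zero]
      have : (Finsupp.single (0 : Fin 2) 1 : Fin 2 →₀ ℕ) 1 = 0 := by
        simp
      omega
    have h3 := h1.mul h2
    convert h3 using 1
    rw [weight_eq]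
    simp only [Matrix.cons_val_one, Matrix.cons_val_zero]
    omega

theorem isobaric_X0sq_mul_pderiv1 (d : Fin 2 →₀ ℕ) (r : K) :
    IsWeightedHomogeneous (![4, 6] : Fin 2 → ℕ) (X 0 ^ 2 * pderiv 1 (monomial d r) : SK)
      (Finsupp.weight (![4, 6] : Fin 2 → ℕ) d + 2) := by
  rw [pderiv_monomial]
  by_cases h : d 1 = 0
  · simp only [h, Nat.cast_zero, mul_zero, monomial_zero, mul_zero]
    exact isWeightedHomogeneous_zero K _ _
  · have h1 := (isWeightedHomogeneous_X K (![4, 6] : Fin 2 → ℕ) (0 : Fin 2)).pow 2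
    have h2 : IsWeightedHomogeneous (![4, 6] : Fin 2 → ℕ)
        (monomial (d - Finsupp.single 1 1) (r * (d 1 : K)) : SK)
        (Finsupp.weight (![4, 6] : Fin 2 → ℕ) d - 6) := by
      apply isWeightedHomogeneous_monomial
      rw [weight_eq, weight_eq]
      simp only [Finsupp.coe_tsub, Pi.sub_apply, Finsupp.single_eq_same]
      have : (Finsupp.single (1 : Fin 2) 1 : Fin 2 →₀ ℕ) 0 = 0 := by
        simp
      omega
    have h3 := h1.mul h2
    convert h3 using 1
    rw [weight_eq]
    simp only [Matrix.cons_val_zero, smul_eq_mul]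
    omega

/-- The Serre derivation raises the weight by `2`. -/
theorem dS_isobaric {g : SK} {k : ℕ}
    (hg : IsWeightedHomogeneous (![4, 6] : Fin 2 → ℕ) g k) :
    IsWeightedHomogeneous (![4, 6] : Fin 2 → ℕ) (dS g) (k + 2) := by
  induction hg using IsWeightedHomogeneous.induction_on with
  | zero => simpa using isWeightedHomogeneous_zero K _ _
  | add p q hp hq ihp ihq => rw [map_add]; exact ihp.add ihq
  | monomial d r hr =>
    rw [dS_apply, ← hr]
    refine IsWeightedHomogeneous.add ?_ ?_
    · have := (isobaric_X1_mul_pderiv0 d r).C_mul (-4 : K)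
      rw [map_neg, map_ofNat] at this
      convert this using 1
      ring
    · have := (isobaric_X0sq_mul_pderiv1 d r).C_mul (-6 : K)
      rw [map_neg, map_ofNat] at this
      convert this using 1
      ring

/-! ### The cuspidal cubic: `ker (Q ↦ t⁴, R ↦ t⁶) ⊆ (Q³ - R²)` -/

/-- `Q ↦ t⁴, R ↦ t⁶` -/
def tau : SK →ₐ[K] Polynomial K := aeval ![Polynomial.X ^ 4, Polynomial.X ^ 6]

/-- `Q³ - R²` -/
def Dpoly : SK := X 0 ^ 3 - X 1 ^ 2

theorem tau_Dpoly : tau (Dpoly : SK) = 0 := by
  simp only [tau, Dpoly, map_sub, map_pow, aeval_X, Matrix.cons_val_zero, Matrix.cons_val_one]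
  ring

/-- `K[x] → K[Q, R]`, `x ↦ Q` -/
def embQ : Polynomial K →ₐ[K] SK := Polynomial.aeval (X 0)

theorem tau_embQ (p : Polynomial K) : tau (embQ p) = Polynomial.expand K 4 p := by
  have h : (tau : SK →ₐ[K] Polynomial K).comp embQ = Polynomial.expand K 4 := by
    apply Polynomial.algHom_ext
    simp [tau, embQ]
  exact congrArg (fun f : Polynomial K →ₐ[K] Polynomial K => f p) h

theorem normal_form (g : SK) :
    ∃ g₀ g₁ : Polynomial K, Dpoly ∣ g - (embQ g₀ + X 1 * embQ g₁) := by
  induction g using MvPolynomial.induction_on with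
  | C a =>
    refine ⟨Polynomial.C a, 0, ?_⟩
    simp [embQ]
  | add p q hp hq =>
    obtain ⟨p0, p1, hp⟩ := hp
    obtain ⟨q0, q1, hq⟩ := hq
    refine ⟨p0 + q0, p1 + q1, ?_⟩
    convert dvd_add hp hq using 1
    simp only [map_add]
    ring
  | mul_X p i hp =>
    obtain ⟨p0, p1, hp⟩ := hp
    fin_cases i
    · refine ⟨Polynomial.X * p0, Polynomial.X * p1, ?_⟩
      convert hp.mul_right (X 0) using 1
      simp only [embQ, map_mul, Polynomial.aeval_X, Fin.zero_eta]
      ring
    · refine ⟨Polynomial.X ^ 3 * p1, p0, ?_⟩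
      have : p * X 1 - (embQ (Polynomial.X ^ 3 * p1) + X 1 * embQ p0) =
          (p - (embQ p0 + X 1 * embQ p1)) * X 1 - Dpoly * embQ p1 := by
        simp only [embQ, map_mul, map_pow, Polynomial.aeval_X, Dpoly]
        ring
      simp only [Fin.mk_one]
      rw [this]
      exact dvd_sub (hp.mul_right _) (dvd_mul_right _ _)

theorem expand_add_eq_zero {g₀ g₁ : Polynomial K}
    (h : Polynomial.expand K 4 g₀ + Polynomial.X ^ 6 * Polynomial.expand K 4 g₁ = 0) :
    g₀ = 0 ∧ g₁ = 0 := by
  constructor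
  · ext m
    have := congrArg (fun p : Polynomial K => p.coeff (4 * m)) h
    simp only [Polynomial.coeff_add, Polynomial.coeff_X_pow_mul', Polynomial.coeff_zero,
      Polynomial.coeff_expand (by norm_num : 0 < 4)] at this
    rw [if_pos (dvd_mul_right 4 m), Nat.mul_div_cancel_left m (by norm_num : 0 < 4)] at this
    rw [Polynomial.coeff_zero]
    split_ifs at this with h1 h2
    · omega
    · simpa using this
    · simpa using this
  · ext m
    have := congrArg (fun p : Polynomial K => p.coeff (4 * m + 6)) h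
    simp only [Polynomial.coeff_add, Polynomial.coeff_X_pow_mul', Polynomial.coeff_zero,
      Polynomial.coeff_expand (by norm_num : 0 < 4)] at this
    rw [if_neg (by omega), if_pos (by omega), Nat.add_sub_cancel, if_pos (dvd_mul_right 4 m),
      Nat.mul_div_cancel_left m (by norm_num : 0 < 4), zero_add] at this
    rw [Polynomial.coeff_zero]
    exact this

/-- A polynomial vanishing on the cuspidal cubic `(t⁴, t⁶)` is divisible by `Q³ - R²`. -/
theorem dvd_of_tau_eq_zero {g : SK} (h : tau g = 0) : Dpoly ∣ g := by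
  obtain ⟨g₀, g₁, c, hc⟩ := normal_form g
  have h1 := congrArg tau hc
  rw [map_sub, h, map_mul, tau_Dpoly, zero_mul, zero_sub, neg_eq_zero, map_add, map_mul, tau_embQ,
    tau_embQ] at h1
  have h2 : tau (X 1 : SK) = Polynomial.X ^ 6 := by simp [tau]
  rw [h2] at h1
  obtain ⟨rfl, rfl⟩ := expand_add_eq_zero h1
  rw [map_zero, mul_zero, add_zero, sub_zero] at hc
  exact ⟨c, hc⟩

theorem tau_monomial (d : Fin 2 →₀ ℕ) (r : K) :
    tau (monomial d r : SK) = Polynomial.C r * Polynomial.X ^ (d 0 * 4 + d 1 * 6) := by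
  rw [tau, aeval_monomial, Finsupp.prod_fintype _ _ (fun i => by simp), Fin.prod_univ_two]
  simp only [Matrix.cons_val_zero, Matrix.cons_val_one, Polynomial.algebraMap_eq]
  ring

theorem tau_of_isobaric {g : SK} {k : ℕ}
    (hg : IsWeightedHomogeneous (![4, 6] : Fin 2 → ℕ) g k) :
    tau g = Polynomial.C (eval (fun _ => 1) g) * Polynomial.X ^ k := by
  induction hg using IsWeightedHomogeneous.induction_on with
  | zero => simp
  | add p q hp hq ihp ihq => rw [map_add, ihp, ihq, map_add, map_add, add_mul]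
  | monomial d r hr =>
    rw [tau_monomial, ← weight_eq, hr, eval_monomial]
    simp

/-! ### Division of isobaric polynomials by `Q³ - R²` -/

theorem Dpoly_isobaric : IsWeightedHomogeneous (![4, 6] : Fin 2 → ℕ) (Dpoly : SK) 12 := by
  have h0 := (isWeightedHomogeneous_X K (![4, 6] : Fin 2 → ℕ) (0 : Fin 2)).pow 3
  have h1 := (isWeightedHomogeneous_X K (![4, 6] : Fin 2 → ℕ) (1 : Fin 2)).pow 2
  exact h0.sub h1

attribute [local instance] MvPolynomial.weightedGradedAlgebra

/-- If `Q³ - R²` divides an isobaric polynomial of weight `k`, the quotient can be chosen isobaric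
of weight `k - 12`; if `k < 12` the polynomial is zero. -/
theorem exists_isobaric_quotient {g : SK} {k : ℕ}
    (hg : IsWeightedHomogeneous (![4, 6] : Fin 2 → ℕ) g k) (hd : Dpoly ∣ g) :
    (k < 12 → g = 0) ∧ ∃ g' : SK, IsWeightedHomogeneous (![4, 6] : Fin 2 → ℕ) g' (k - 12) ∧
      g = Dpoly * g' := by
  classical
  obtain ⟨c, rfl⟩ := hd
  have hD : (Dpoly : SK) ∈ weightedHomogeneousSubmodule K (![4, 6] : Fin 2 → ℕ) 12 :=
    (mem_weightedHomogeneousSubmodule K _ _ _).mpr Dpoly_isobaric
  have hcomp : weightedHomogeneousComponent (![4, 6] : Fin 2 → ℕ) k (Dpoly * c) = Dpoly * c :=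
    weightedHomogeneousComponent_of_mem hg |>.trans (by simp)
  have key := DirectSum.coe_decompose_mul_of_left_mem
    (𝒜 := weightedHomogeneousSubmodule K (![4, 6] : Fin 2 → ℕ)) (b := c) k hD
  have e1 : ((DirectSum.decompose (weightedHomogeneousSubmodule K (![4, 6] : Fin 2 → ℕ))
      (Dpoly * c) k : _) : SK) = weightedHomogeneousComponent (![4, 6] : Fin 2 → ℕ) k (Dpoly * c) :=
    weightedDecomposition.decompose'_apply K _ _ _
  have e2 : ((DirectSum.decompose (weightedHomogeneousSubmodule K (![4, 6] : Fin 2 → ℕ))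
      c (k - 12) : _) : SK) = weightedHomogeneousComponent (![4, 6] : Fin 2 → ℕ) (k - 12) c :=
    weightedDecomposition.decompose'_apply K _ _ _
  rw [e1, e2, hcomp] at key
  refine ⟨fun hk => ?_, weightedHomogeneousComponent (![4, 6] : Fin 2 → ℕ) (k - 12) c,
    weightedHomogeneousComponent_isWeightedHomogeneous _ _, ?_⟩
  · rw [key, if_neg (by omega)]
  · by_cases hk : 12 ≤ k
    · rw [if_pos hk] at key
      exact key
    · rw [if_neg hk] at key
      have hc0 : c = 0 := by
        have hD0 : (Dpoly : SK) ≠ 0 := by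
          intro h0
          have := congrArg (coeff (Finsupp.single 0 3)) h0
          simp [Dpoly, coeff_X_pow, Finsupp.single_eq_single_iff] at this
        rcases mul_eq_zero.mp key with h | h
        · exact absurd h hD0
        · exact h
      simp [hc0]

/-! ### Evaluation at a pair of power series -/

section Series

variable (Q R : PowerSeries K)

/-- evaluation `X₀ ↦ Q`, `X₁ ↦ R` -/
def ev : SK →ₐ[K] PowerSeries K := aeval ![Q, R]

@[simp] theorem ev_X0 : ev Q R (X 0) = Q := by simp [ev]
@[simp] theorem ev_X1 : ev Q R (X 1) = R := by simp [ev]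
@[simp] theorem ev_C (a : K) : ev Q R (C a) = PowerSeries.C a := by simp [ev]

theorem ev_Dpoly : ev Q R Dpoly = Q ^ 3 - R ^ 2 := by simp [Dpoly]

variable {Q R}

theorem constantCoeff_ev (hQ0 : PowerSeries.constantCoeff Q = 1)
    (hR0 : PowerSeries.constantCoeff R = 1) (g : SK) :
    PowerSeries.constantCoeff (ev Q R g) = eval (fun _ => 1) g := by
  have : (PowerSeries.constantCoeff (R := K)).comp (ev Q R : SK →ₐ[K] PowerSeries K).toRingHom =
      eval (fun _ => 1) := by
    apply MvPolynomial.ringHom_ext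
    · intro r
      simp
    · intro i
      fin_cases i <;> simp [hQ0, hR0]
  exact congrArg (fun f : SK →+* K => f g) this

/-- **`q`-expansion principle in level one** (algebraic form): the evaluation at `(Q, R)` is
injective on isobaric polynomials as soon as `Q`, `R` have constant term `1` and
`Q³ - R² ≠ 0`. -/
theorem inj_of_isobaric (hQ0 : PowerSeries.constantCoeff Q = 1)
    (hR0 : PowerSeries.constantCoeff R = 1) (hD : Q ^ 3 - R ^ 2 ≠ 0) :
    ∀ (k : ℕ) (g : SK), IsWeightedHomogeneous (![4, 6] : Fin 2 → ℕ) g k → ev Q R g = 0 →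
      g = 0 := by
  intro k
  induction k using Nat.strong_induction_on with
  | _ k ih =>
    intro g hg h0
    have h1 : eval (fun _ => 1) g = 0 := by
      rw [← constantCoeff_ev hQ0 hR0, h0, map_zero]
    have h2 : tau g = 0 := by
      rw [tau_of_isobaric hg, h1]
      simp
    obtain ⟨hsmall, g', hg', rfl⟩ := exists_isobaric_quotient hg (dvd_of_tau_eq_zero h2)
    by_cases hk : k < 12
    · exact hsmall hk
    · have h3 : ev Q R g' = 0 := by
        rw [map_mul, ev_Dpoly] at h0
        exact (mul_eq_zero.mp h0).resolve_left hD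
      rw [ih (k - 12) (by omega) g' hg' h3, mul_zero]

/-- two isobaric polynomials of the same weight with the same evaluation are equal -/
theorem eq_of_isobaric (hQ0 : PowerSeries.constantCoeff Q = 1)
    (hR0 : PowerSeries.constantCoeff R = 1) (hD : Q ^ 3 - R ^ 2 ≠ 0) {k : ℕ} {g h : SK}
    (hg : IsWeightedHomogeneous (![4, 6] : Fin 2 → ℕ) g k)
    (hh : IsWeightedHomogeneous (![4, 6] : Fin 2 → ℕ) h k) (he : ev Q R g = ev Q R h) :
    g = h :=
  sub_eq_zero.mp (inj_of_isobaric hQ0 hR0 hD k _ (hg.sub hh) (by rw [map_sub, he, sub_self]))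

/-- Chain rule: from Ramanujan's equations `3θQ = PQ - R`, `2θR = PR - Q²` one gets
`12 θ(g(Q,R)) = P · (E g)(Q,R) + (∂ g)(Q,R)` for every polynomial `g`. -/
theorem theta_ev (P : PowerSeries K)
    (hQ : 3 * (PowerSeries.X * PowerSeries.derivative K Q) = P * Q - R)
    (hR : 2 * (PowerSeries.X * PowerSeries.derivative K R) = P * R - Q ^ 2) (g : SK) :
    12 * (PowerSeries.X * PowerSeries.derivative K (ev Q R g)) =
      P * ev Q R (eul g) + ev Q R (dS g) := by
  induction g using MvPolynomial.induction_on with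
  | C a => simp
  | add p q hp hq =>
    simp only [map_add, mul_add]
    rw [hp, hq]
    ring
  | mul_X p i hp =>
    have hXi : 12 * (PowerSeries.X * PowerSeries.derivative K (ev Q R (X i))) =
        P * ev Q R (eul (X i)) + ev Q R (dS (X i)) := by
      fin_cases i
      · simp only [Fin.zero_eta, ev_X0, ev_X1, eul_X0, dS_X0, map_mul, map_neg, map_ofNat]
        linear_combination 4 * hQ
      · simp only [Fin.mk_one, ev_X1, eul_X1, dS_X1, map_mul, map_neg, map_ofNat, map_pow, ev_X0]
        linear_combination 6 * hR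
    rw [map_mul, Derivation.leibniz, Derivation.leibniz, Derivation.leibniz]
    simp only [smul_eq_mul, map_add, map_mul]
    linear_combination (ev Q R (X i)) * hp + (ev Q R p) * hXi

end Series

end

end Fermat.Agent.S16.SD
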