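/-
T16 / SD (Swinnerton-Dyer, `l ≥ 5`): the abstract theorem.

Let `K` be a field of characteristic `l ≥ 5` and `P, Q, R ∈ K⟦X⟧` three power series with
`Q(0) = R(0) = 1`, `Q³ ≠ R²`, satisfying Ramanujan's differential equations.  Assume there is an
isobaric polynomial `a` of weight `l - 1` with `a(Q, R) = 1` (the Hasse invariant `E_{l-1}`).
Then an isobaric polynomial `f` of weight `k` with `f(Q, R)` a non-zero constant has
`(l - 1) ∣ k`.
-/
import Fermat.Agent.S16.SD.Core
import Fermat.Agent.S16.SD.SquarefreeAux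

set_option autoImplicit false

namespace Fermat.Agent.S16.SD

open MvPolynomial

variable {K : Type*} [Field K]

local notation "SK" => MvPolynomial (Fin 2) K

theorem sd_abstract (l : ℕ) [hl : Fact l.Prime] [CharP K l] (h5 : 5 ≤ l)
    (P Q R : PowerSeries K)
    (hQ0 : PowerSeries.constantCoeff Q = 1) (hR0 : PowerSeries.constantCoeff R = 1)
    (hD : Q ^ 3 - R ^ 2 ≠ 0)
    (hP : 12 * (PowerSeries.X * PowerSeries.derivative K P) = P ^ 2 - Q)
    (hQ : 3 * (PowerSeries.X * PowerSeries.derivative K Q) = P * Q - R)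
    (hR : 2 * (PowerSeries.X * PowerSeries.derivative K R) = P * R - Q ^ 2)
    (a : SK) (ha : IsWeightedHomogeneous (![4, 6] : Fin 2 → ℕ) a (l - 1))
    (ha1 : aeval ![Q, R] a = 1)
    {k : ℕ} (f : SK) (hf : IsWeightedHomogeneous (![4, 6] : Fin 2 → ℕ) f k)
    (c : K) (hc : c ≠ 0) (hfc : aeval ![Q, R] f = PowerSeries.C c) :
    (l - 1) ∣ k := by
  have hl1 : 1 ≤ l := by omega
  have ha1' : ev Q R a = 1 := ha1
  have hfc' : ev Q R f = PowerSeries.C c := hfc
  have hcast1 : ((l - 1 : ℕ) : PowerSeries K) = -1 := by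
    rw [Nat.cast_sub hl1, Nat.cast_one]
    have : ((l : ℕ) : PowerSeries K) = 0 := by
      rw [← map_natCast (PowerSeries.C (R := K)), CharP.cast_eq_zero K l, map_zero]
    rw [this, zero_sub]
  have hcast2 : ((l - 1 + 2 : ℕ) : PowerSeries K) = 1 := by
    rw [Nat.cast_add, hcast1]
    norm_num
  -- `a ≠ 0`
  have ha0 : a ≠ 0 := by
    rintro rfl
    rw [map_zero] at ha1'
    exact zero_ne_one ha1'
  -- `b := ∂a` has evaluation `P`
  have hb : IsWeightedHomogeneous (![4, 6] : Fin 2 → ℕ) (dS a) (l - 1 + 2) := dS_isobaric ha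
  have hevb : ev Q R (dS a) = P := by
    have h := theta_ev P hQ hR a
    rw [ha1', eul_of_isobaric ha, map_mul, map_natCast, ha1', hcast1,
      Derivation.map_one_eq_zero, mul_zero, mul_zero] at h
    linear_combination -h
  -- `∂b = -Q a`
  have hdb : dS (dS a) = -(X 0 * a) := by
    have hw1 : IsWeightedHomogeneous (![4, 6] : Fin 2 → ℕ) (dS (dS a)) (l - 1 + 2 + 2) :=
      dS_isobaric hb
    have hw2 : IsWeightedHomogeneous (![4, 6] : Fin 2 → ℕ) (-(X 0 * a) : SK) (l - 1 + 2 + 2) := by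
      have := ((isWeightedHomogeneous_X K (![4, 6] : Fin 2 → ℕ) (0 : Fin 2)).mul ha).neg
      have e : l - 1 + 2 + 2 = 4 + (l - 1) := by omega
      rw [e]
      exact this
    refine eq_of_isobaric hQ0 hR0 hD hw1 hw2 ?_
    have h := theta_ev P hQ hR (dS a)
    rw [hevb, eul_of_isobaric hb, map_mul, map_natCast, hevb, hcast2] at h
    rw [map_neg, map_mul, ev_X0, ha1']
    linear_combination hP - h
  -- `Q³ - R² ∤ a`
  have hΔ : ¬ (X 0 ^ 3 - X 1 ^ 2 : SK) ∣ a := by
    rintro ⟨c', hc'⟩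
    have h := congrArg (fun g => PowerSeries.constantCoeff (ev Q R g)) hc'
    simp only [ha1', map_mul, map_sub, map_pow, ev_X0, ev_X1, hQ0, hR0, map_one] at h
    norm_num at h
  -- `f ^ (l-1) = c^(l-1) a^k`
  have hpow : f ^ (l - 1) = C (c ^ (l - 1)) * a ^ k := by
    have hw1 : IsWeightedHomogeneous (![4, 6] : Fin 2 → ℕ) (f ^ (l - 1)) ((l - 1) * k) := by
      have := hf.pow (l - 1)
      simpa [smul_eq_mul] using this
    have hw2 : IsWeightedHomogeneous (![4, 6] : Fin 2 → ℕ) (C (c ^ (l - 1)) * a ^ k : SK)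
        ((l - 1) * k) := by
      have := (ha.pow k).C_mul (c ^ (l - 1))
      simpa [smul_eq_mul, mul_comm] using this
    refine eq_of_isobaric hQ0 hR0 hD hw1 hw2 ?_
    simp only [map_mul, map_pow, hfc', ha1', ev_C, one_pow, mul_one]
  exact sub_one_dvd_of_pow_eq l h5 dS dS_X0 dS_X1 a (dS a) ha ha0 rfl hdb hΔ k f (c ^ (l - 1))
    (pow_ne_zero _ hc) hpow

end Fermat.Agent.S16.SD
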