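/-
T16 / SD: bridge from level-one modular forms to isobaric polynomials over a residue field.

If a level-one form `f` of weight `k` has `q`-expansion `s.map φ` with `s ∈ A⟦X⟧`
(`φ : A →+* ℂ` injective) and `red : A →+* K` is a ring homomorphism to a field in which `1728`
is invertible, then `s.map red = g(E₄, E₆)` for an isobaric `g ∈ K[X₀, X₁]` of weight `k`
(weights `4, 6`).  Uses the level-one integrality theorem `L1.exists_mvPolynomial`.
-/
import Fermat.Agent.S16.LevelOneIntegral
import Fermat.Agent.S16.SD.Core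

set_option autoImplicit false

namespace Fermat.Agent.S16.SD

open MvPolynomial UpperHalfPlane ModularForm ModularFormClass EisensteinSeries
open scoped MatrixGroups ModularForm Manifold

open Fermat.Agent.S23 Fermat.Agent.S20FM Fermat.Agent.S16.L1

noncomputable section

/-- the image of the integral series `E₄` in `K⟦X⟧` -/
abbrev QK (K : Type*) [CommRing K] : PowerSeries K := E4Z.map (Int.castRingHom K)

/-- the image of the integral series `E₆` in `K⟦X⟧` -/
abbrev RK (K : Type*) [CommRing K] : PowerSeries K := E6Z.map (Int.castRingHom K)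

theorem constantCoeff_QK (K : Type*) [CommRing K] : PowerSeries.constantCoeff (QK K) = 1 := by
  rw [← PowerSeries.coeff_zero_eq_constantCoeff_apply, PowerSeries.coeff_map, coeff_zero_E4Z]
  simp

theorem constantCoeff_RK (K : Type*) [CommRing K] : PowerSeries.constantCoeff (RK K) = 1 := by
  rw [← PowerSeries.coeff_zero_eq_constantCoeff_apply, PowerSeries.coeff_map, coeff_zero_E6Z]
  simp

theorem QK_cube_sub_RK_sq (K : Type*) [CommRing K] :
    QK K ^ 3 - RK K ^ 2 = PowerSeries.C (1728 : K) * DeltaZ.map (Int.castRingHom K) := by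
  have h := congrArg (PowerSeries.map (Int.castRingHom K)) DeltaZ_identity
  rw [map_mul, map_sub, map_pow, map_pow, PowerSeries.map_C] at h
  rw [← h]
  simp

theorem QK_cube_sub_RK_sq_ne_zero {K : Type*} [Field K] (h1728 : (1728 : K) ≠ 0) :
    QK K ^ 3 - RK K ^ 2 ≠ 0 := by
  intro h
  have h1 := congrArg (PowerSeries.coeff 1) h
  rw [QK_cube_sub_RK_sq, PowerSeries.coeff_C_mul, PowerSeries.coeff_map, coeff_one_DeltaZ] at h1
  simp at h1
  exact h1728 h1

theorem map_gens {A K : Type*} [CommRing A] [CommRing K] (red : A →+* K) (i : Fin 3) :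
    PowerSeries.map red (gens A i) = gens K i := by
  have key : ∀ Z : PowerSeries ℤ, PowerSeries.map red (Z.map (Int.castRingHom A)) =
      Z.map (Int.castRingHom K) := by
    intro Z
    ext n
    simp [PowerSeries.coeff_map]
  fin_cases i <;> exact key _

theorem map_aeval_gens {A K : Type*} [CommRing A] [CommRing K] (red : A →+* K)
    (P : MvPolynomial (Fin 3) A) :
    PowerSeries.map red (aeval (gens A) P) = aeval (gens K) (MvPolynomial.map red P) := by
  induction P using MvPolynomial.induction_on with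
  | C a => simp [PowerSeries.algebraMap_eq]
  | add p q hp hq => simp only [map_add, hp, hq]
  | mul_X p i hp => simp only [map_mul, hp, aeval_X, map_X, map_gens]

variable {K : Type*} [Field K]

/-- elimination of `Δ`: `X₂ ↦ (X₀³ - X₁²)/1728` -/
def elim : MvPolynomial (Fin 3) K →ₐ[K] MvPolynomial (Fin 2) K :=
  aeval ![X 0, X 1, C (1728 : K)⁻¹ * Dpoly]

theorem ev_elim (h1728 : (1728 : K) ≠ 0) (P : MvPolynomial (Fin 3) K) :
    ev (QK K) (RK K) (elim P) = aeval (gens K) P := by
  have h : ((ev (QK K) (RK K)).comp elim : MvPolynomial (Fin 3) K →ₐ[K] PowerSeries K) =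
      aeval (gens K) := by
    apply MvPolynomial.algHom_ext
    intro i
    fin_cases i
    · simp [elim, gens]
    · simp [elim, gens]
    · simp only [elim, AlgHom.coe_comp, Function.comp_apply, aeval_X, gens]
      simp only [Fin.reduceFinMk, Matrix.cons_val_two, Matrix.tail_cons, Matrix.head_cons]
      rw [map_mul, ev_C, ev_Dpoly, QK_cube_sub_RK_sq, ← mul_assoc, ← map_mul,
        inv_mul_cancel₀ h1728, map_one, one_mul]
  exact congrArg (fun F : MvPolynomial (Fin 3) K →ₐ[K] PowerSeries K => F P) h

theorem elim_isobaric {P : MvPolynomial (Fin 3) K} {k : ℕ}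
    (hP : IsWeightedHomogeneous wtsNat P k) :
    IsWeightedHomogeneous (![4, 6] : Fin 2 → ℕ) (elim P) k := by
  induction hP using IsWeightedHomogeneous.induction_on with
  | zero => simpa using isWeightedHomogeneous_zero K _ _
  | add p q hp hq ihp ihq => rw [map_add]; exact ihp.add ihq
  | monomial d r hr =>
    rw [elim, aeval_monomial, Finsupp.prod_fintype _ _ (fun i => by simp), Fin.prod_univ_three]
    simp only [Matrix.cons_val_zero, Matrix.cons_val_one, Matrix.cons_val_two, Matrix.tail_cons,
      Matrix.head_cons, algebraMap_eq]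
    have h0 := (isWeightedHomogeneous_X K (![4, 6] : Fin 2 → ℕ) (0 : Fin 2)).pow (d 0)
    have h1 := (isWeightedHomogeneous_X K (![4, 6] : Fin 2 → ℕ) (1 : Fin 2)).pow (d 1)
    have h2 := ((Dpoly_isobaric (K := K)).C_mul (1728 : K)⁻¹).pow (d 2)
    have hC := isWeightedHomogeneous_C (![4, 6] : Fin 2 → ℕ) r
    have h := hC.mul ((h0.mul h1).mul h2)
    have hw : Finsupp.weight wtsNat d = d 0 * 4 + d 1 * 6 + d 2 * 12 := by
      simp [Finsupp.weight_apply, Finsupp.sum_fintype, Fin.sum_univ_three, wtsNat]
    rw [hw] at hr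
    have e : k = 0 + (d 0 • (![4, 6] : Fin 2 → ℕ) 0 + d 1 • (![4, 6] : Fin 2 → ℕ) 1 + d 2 • 12) := by
      simp only [Matrix.cons_val_zero, Matrix.cons_val_one, smul_eq_mul]
      omega
    rw [e]
    convert h using 1

theorem map_isobaric {A : Type*} [CommRing A] (red : A →+* K) {P : MvPolynomial (Fin 3) A} {k : ℕ}
    (hP : IsWeightedHomogeneous wtsNat P k) :
    IsWeightedHomogeneous wtsNat (MvPolynomial.map red P) k := by
  intro d hd
  apply hP
  intro h0
  apply hd
  rw [coeff_map, h0, map_zero]

/-- **Bridge.** -/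
theorem exists_isobaric_of_qExpansion {A : Type*} [CommRing A] (φ : A →+* ℂ)
    (hφ : Function.Injective φ) (h1728 : (1728 : K) ≠ 0) (red : A →+* K) (k : ℕ) (f : ℍ → ℂ)
    (hf : IsMF 𝒮ℒ (k : ℤ) f) (s : PowerSeries A) (hs : qExpansion 1 f = s.map φ) :
    ∃ g : MvPolynomial (Fin 2) K, IsWeightedHomogeneous (![4, 6] : Fin 2 → ℕ) g k ∧
      aeval ![QK K, RK K] g = s.map red := by
  obtain ⟨P, hP, hPq, -⟩ := exists_mvPolynomial φ (k : ℤ) f hf (fun i _ => by
    rw [hs, PowerSeries.coeff_map]
    exact ⟨_, rfl⟩)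
  have hsP : s = aeval (gens A) P := by
    have hinj : Function.Injective (PowerSeries.map φ) := by
      intro x y hxy
      ext n
      have := congrArg (PowerSeries.coeff n) hxy
      rw [PowerSeries.coeff_map, PowerSeries.coeff_map] at this
      exact hφ this
    apply hinj
    rw [← hs, hPq, evalQ]
  refine ⟨elim (MvPolynomial.map red P), elim_isobaric (map_isobaric red (isWH_nat hP)), ?_⟩
  have := ev_elim h1728 (MvPolynomial.map red P)
  rw [ev] at this
  rw [this, ← map_aeval_gens, ← hsP]

end

end Fermat.Agent.S16.SD
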