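/-
T16 / SD (Swinnerton-Dyer, `l ≥ 5`): final statements.

* `HasHasse l` : the existence of the Hasse invariant `a ∈ 𝔽_l[Q, R]`, isobaric of weight `l - 1`
  with `a(E₄, E₆) = 1` (supplied by `SD/Hasse.lean`).
* `sd_field` : over any field `K` of characteristic `l ≥ 5`: an isobaric `f` of weight `k` with
  `f(E₄, E₆) = c ≠ 0` constant has `(l - 1) ∣ k`.
* `sd_of_series` : general ring version: a level-one form of weight `k` with `q`-expansion in `A⟦X⟧`
  (`A ⊆ ℂ`) whose reduction to `K⟦X⟧` is a non-zero constant has `(l - 1) ∣ k`.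
* `sd_Zl` : the same for `A = ℤ_(l) = Rl.Zl l`, `K = ZMod l`.
-/
import Fermat.Agent.S16.SD.Abstract
import Fermat.Agent.S16.SD.Bridge
import Fermat.Agent.S16.RAM.Bridge
import Fermat.Agent.S16.LocalRing

set_option autoImplicit false

namespace Fermat.Agent.S16.SD

open MvPolynomial UpperHalfPlane ModularForm ModularFormClass EisensteinSeries
open scoped MatrixGroups ModularForm Manifold

open Fermat.Agent.S23 Fermat.Agent.S20FM Fermat.Agent.S16.L1

noncomputable section

/-- The Hasse invariant exists at `l`: an isobaric polynomial of weight `l - 1` over `𝔽_l` whose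
value at `(E₄, E₆)` is the constant series `1`. -/
def HasHasse (l : ℕ) : Prop :=
  ∃ a : MvPolynomial (Fin 2) (ZMod l), IsWeightedHomogeneous (![4, 6] : Fin 2 → ℕ) a (l - 1) ∧
    aeval ![QK (ZMod l), RK (ZMod l)] a = 1

theorem map_QK {A B : Type*} [CommRing A] [CommRing B] (ι : A →+* B) :
    PowerSeries.map ι (QK A) = QK B := by
  ext n
  simp [QK, PowerSeries.coeff_map]

theorem map_RK {A B : Type*} [CommRing A] [CommRing B] (ι : A →+* B) :
    PowerSeries.map ι (RK A) = RK B := by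
  ext n
  simp [RK, PowerSeries.coeff_map]

theorem map_aeval_QR {A B : Type*} [CommRing A] [CommRing B] (ι : A →+* B)
    (P : MvPolynomial (Fin 2) A) :
    PowerSeries.map ι (aeval ![QK A, RK A] P) = aeval ![QK B, RK B] (MvPolynomial.map ι P) := by
  induction P using MvPolynomial.induction_on with
  | C a => simp [PowerSeries.algebraMap_eq]
  | add p q hp hq => simp only [map_add, hp, hq]
  | mul_X p i hp =>
    simp only [map_mul, hp, aeval_X, map_X]
    fin_cases i
    · simp [map_QK]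
    · simp [map_RK]

theorem map_isobaric₂ {A B : Type*} [CommRing A] [CommRing B] (ι : A →+* B)
    {P : MvPolynomial (Fin 2) A} {k : ℕ}
    (hP : IsWeightedHomogeneous (![4, 6] : Fin 2 → ℕ) P k) :
    IsWeightedHomogeneous (![4, 6] : Fin 2 → ℕ) (MvPolynomial.map ι P) k := by
  intro d hd
  apply hP
  intro h0
  apply hd
  rw [coeff_map, h0, map_zero]

theorem ne_zero_1728 (l : ℕ) [hl : Fact l.Prime] (h5 : 5 ≤ l) (K : Type*) [Field K] [CharP K l] :
    (1728 : K) ≠ 0 := by
  have h : ((1728 : ℕ) : K) ≠ 0 := by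
    rw [Ne, CharP.cast_eq_zero_iff K l]
    intro hd
    have h1 : l ∣ 2 ^ 6 * 3 ^ 3 := by
      norm_num
      exact hd
    rcases (Nat.Prime.dvd_mul hl.out).mp h1 with h2 | h3
    · have := (Nat.prime_dvd_prime_iff_eq hl.out Nat.prime_two).mp (hl.out.dvd_of_dvd_pow h2)
      omega
    · have := (Nat.prime_dvd_prime_iff_eq hl.out Nat.prime_three).mp (hl.out.dvd_of_dvd_pow h3)
      omega
  exact_mod_cast h

/-- **Swinnerton-Dyer**, polynomial form over a field of characteristic `l ≥ 5`. -/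
theorem sd_field (l : ℕ) [hl : Fact l.Prime] (h5 : 5 ≤ l) (hH : HasHasse l)
    {K : Type*} [Field K] [CharP K l] {k : ℕ} (f : MvPolynomial (Fin 2) K)
    (hf : IsWeightedHomogeneous (![4, 6] : Fin 2 → ℕ) f k) (c : K) (hc : c ≠ 0)
    (hfc : aeval ![QK K, RK K] f = PowerSeries.C c) : (l - 1) ∣ k := by
  obtain ⟨a, ha, ha1⟩ := hH
  let ι : ZMod l →+* K := ZMod.castHom (dvd_refl l) K
  have h1728 := ne_zero_1728 l h5 K
  refine sd_abstract l h5 (RAM.e2 K) (QK K) (RK K) (constantCoeff_QK K) (constantCoeff_RK K)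
    (QK_cube_sub_RK_sq_ne_zero h1728) (RAM.ramanujan_P K) (RAM.ramanujan_Q K) (RAM.ramanujan_R K)
    (MvPolynomial.map ι a) (map_isobaric₂ ι ha) ?_ f hf c hc hfc
  rw [← map_aeval_QR, ha1, map_one]

/-- **Swinnerton-Dyer**, general coefficient ring: `f` a level-one form of weight `k` whose
`q`-expansion comes from `s ∈ A⟦X⟧` (`φ : A →+* ℂ` injective), `red : A →+* K` with `K` a field of
characteristic `l ≥ 5`.  If `s` reduces to a non-zero constant, then `(l - 1) ∣ k`. -/
theorem sd_of_series (l : ℕ) [hl : Fact l.Prime] (h5 : 5 ≤ l) (hH : HasHasse l)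
    {A : Type*} [CommRing A] (φ : A →+* ℂ) (hφ : Function.Injective φ)
    {K : Type*} [Field K] [CharP K l] (red : A →+* K) (k : ℤ) (f : ℍ → ℂ)
    (hf : IsMF 𝒮ℒ k f) (s : PowerSeries A) (hs : qExpansion 1 f = s.map φ)
    (c : K) (hc : c ≠ 0) (hred : s.map red = PowerSeries.C c) : ((l : ℤ) - 1) ∣ k := by
  have hk0 : 0 ≤ k := by
    by_contra hneg
    have hf0 : f = 0 := levelOne_neg (not_le.mp hneg) hf
    have h0 : s = 0 := by
      ext n
      have := congrArg (PowerSeries.coeff n) hs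
      rw [hf0, qExp_zero, PowerSeries.coeff_map] at this
      simp only [map_zero] at this ⊢
      exact hφ (by rw [← this, map_zero])
    rw [h0, map_zero] at hred
    have := congrArg (PowerSeries.coeff 0) hred
    simp at this
    exact hc this.symm
  obtain ⟨m, rfl⟩ := Int.eq_ofNat_of_zero_le hk0
  obtain ⟨g, hg, hge⟩ :=
    exists_isobaric_of_qExpansion φ hφ (ne_zero_1728 l h5 K) red m f hf s hs
  have := sd_field l h5 hH g hg c hc (hge.trans hred)
  have hl1 : 1 ≤ l := hl.out.one_lt.le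
  have h2 : ((l - 1 : ℕ) : ℤ) ∣ (m : ℤ) := Int.natCast_dvd_natCast.mpr this
  rwa [Nat.cast_sub hl1, Nat.cast_one] at h2

/-- **Swinnerton-Dyer** for `l`-integral level-one forms (`A = ℤ_(l)`): a level-one form of
weight `k` whose `q`-expansion is `l`-integral and congruent to a non-zero constant modulo `l` has
`(l - 1) ∣ k`. -/
theorem sd_Zl (l : ℕ) [hl : Fact l.Prime] (h5 : 5 ≤ l) (hH : HasHasse l) (k : ℤ) (f : ℍ → ℂ)
    (hf : IsMF 𝒮ℒ k f) (hint : ∀ n, (qExpansion 1 f).coeff n ∈ Rl.Zl l)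
    (h0 : Rl.red l ⟨_, hint 0⟩ ≠ 0) (hn : ∀ n, 1 ≤ n → Rl.red l ⟨_, hint n⟩ = 0) :
    ((l : ℤ) - 1) ∣ k := by
  have : CharP (ZMod l) l := ZMod.charP l
  refine sd_of_series l h5 hH (Rl.Zl l).subtype Subtype.val_injective (Rl.red l) k f hf
    (PowerSeries.mk fun n => ⟨_, hint n⟩) ?_ (Rl.red l ⟨_, hint 0⟩) h0 ?_
  · ext n
    simp [PowerSeries.coeff_map]
  · ext n
    rw [PowerSeries.coeff_map, PowerSeries.coeff_mk, PowerSeries.coeff_C]
    split_ifs with h
    · subst h
      rfl
    · exact hn n (Nat.one_le_iff_ne_zero.mpr h)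

end

end Fermat.Agent.S16.SD
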