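/-
T16 / SD (Swinnerton-Dyer, `l ≥ 5`): unconditional final statements
(`SD/Main.lean` + the Hasse invariant of `SD/Hasse.lean`).

* `swinnertonDyer_Zl` : a level-one form of weight `k` with `l`-integral `q`-expansion congruent to
  a non-zero constant modulo `l` has `(l - 1) ∣ k`   (consumer shape (D) of U5/UP).
* `swinnertonDyer_of_series` : the same for any coefficient ring `A ⊆ ℂ` and reduction to a field
  `K` of characteristic `l`.
* `swinnertonDyer_field` : the polynomial form over a field of characteristic `l`.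
-/
import Fermat.Agent.S16.SD.Main
import Fermat.Agent.S16.SD.Hasse

set_option autoImplicit false

namespace Fermat.Agent.S16.SD

open MvPolynomial UpperHalfPlane ModularForm ModularFormClass EisensteinSeries
open scoped MatrixGroups ModularForm Manifold

open Fermat.Agent.S23 Fermat.Agent.S20FM Fermat.Agent.S16.L1

theorem hasHasse (l : ℕ) [Fact l.Prime] (h5 : 5 ≤ l) : HasHasse l :=
  Hasse.exists_hasse l h5

/-- **Swinnerton-Dyer**, polynomial form over a field of characteristic `l ≥ 5`. -/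
theorem swinnertonDyer_field (l : ℕ) [Fact l.Prime] (h5 : 5 ≤ l)
    {K : Type*} [Field K] [CharP K l] {k : ℕ} (f : MvPolynomial (Fin 2) K)
    (hf : IsWeightedHomogeneous (![4, 6] : Fin 2 → ℕ) f k) (c : K) (hc : c ≠ 0)
    (hfc : aeval ![QK K, RK K] f = PowerSeries.C c) : (l - 1) ∣ k :=
  sd_field l h5 (hasHasse l h5) f hf c hc hfc

/-- **Swinnerton-Dyer**, general coefficient ring. -/
theorem swinnertonDyer_of_series (l : ℕ) [Fact l.Prime] (h5 : 5 ≤ l)
    {A : Type*} [CommRing A] (φ : A →+* ℂ) (hφ : Function.Injective φ)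
    {K : Type*} [Field K] [CharP K l] (red : A →+* K) (k : ℤ) (f : ℍ → ℂ)
    (hf : IsMF 𝒮ℒ k f) (s : PowerSeries A) (hs : qExpansion 1 f = s.map φ)
    (c : K) (hc : c ≠ 0) (hred : s.map red = PowerSeries.C c) : ((l : ℤ) - 1) ∣ k :=
  sd_of_series l h5 (hasHasse l h5) φ hφ red k f hf s hs c hc hred

/-- **Swinnerton-Dyer** for `l`-integral level-one forms: if the `q`-expansion of a level-one form
of weight `k` is `l`-integral and congruent to a non-zero constant modulo `l ≥ 5`, then
`(l - 1) ∣ k`. -/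
theorem swinnertonDyer_Zl (l : ℕ) [Fact l.Prime] (h5 : 5 ≤ l) (k : ℤ) (f : ℍ → ℂ)
    (hf : IsMF 𝒮ℒ k f) (hint : ∀ n, (qExpansion 1 f).coeff n ∈ Rl.Zl l)
    (h0 : Rl.red l ⟨_, hint 0⟩ ≠ 0) (hn : ∀ n, 1 ≤ n → Rl.red l ⟨_, hint n⟩ = 0) :
    ((l : ℤ) - 1) ∣ k :=
  sd_Zl l h5 (hasHasse l h5) k f hf hint h0 hn

end Fermat.Agent.S16.SD
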