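/-
T16 / SD piece HAS-H1 (helper63, for helper27's SD/Hasse): the `l`-adic norm of the Bernoulli number
`B_{l-1}` is `l` (von Staudt–Clausen at the prime `l`), hence the non-constant `q`-coefficients
`-(2k/B_k) σ_{k-1}(n)`, `k = l - 1`, of the normalised Eisenstein series `E_{l-1}` have `l`-adic
norm `< 1`.  Mathlib only.
-/
import Mathlib

set_option autoImplicit false

namespace Fermat.Agent.S16.SD

open Finset

/-- a finite sum of `l`-adic numbers of norm `≤ 1` has norm `≤ 1` -/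
private lemma norm_sum_le_one_bern {l : ℕ} [Fact l.Prime] {ι : Type*} (s : Finset ι)
    (f : ι → ℚ_[l]) (hf : ∀ i ∈ s, ‖f i‖ ≤ 1) : ‖∑ i ∈ s, f i‖ ≤ 1 := by
  classical
  induction s using Finset.induction_on with
  | empty => simp
  | insert a s ha ih =>
    rw [Finset.sum_insert ha]
    refine (Padic.nonarchimedean _ _).trans (max_le (hf a (Finset.mem_insert_self a s)) ?_)
    exact ih fun i hi => hf i (Finset.mem_insert_of_mem hi)

/-- **von Staudt–Clausen at `l`**: the `l`-adic norm of `B_{l-1}` is `l`. -/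
theorem norm_bernoulli_pred (l : ℕ) [Fact l.Prime] (h3 : 3 ≤ l) :
    ‖((bernoulli (l - 1) : ℚ) : ℚ_[l])‖ = (l : ℝ) := by
  have hl : l.Prime := Fact.out
  have hodd : Odd l := hl.odd_of_ne_two (by omega)
  obtain ⟨k, hk⟩ := hodd
  have hk2 : l - 1 = 2 * k := by omega
  obtain ⟨n, hn⟩ := Bernoulli.vonStaudt_clausen k
  rw [hk2]
  set S : Finset ℕ := (range (2 * k + 2)).filter (fun p => p.Prime ∧ (p - 1) ∣ 2 * k) with hS
  have hlS : l ∈ S := by
    rw [hS, Finset.mem_filter, Finset.mem_range]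
    refine ⟨by omega, hl, ?_⟩
    rw [← hk2]
  rw [← Finset.add_sum_erase S _ hlS] at hn
  -- B = n - 1/l - rest
  have hB : (bernoulli (2 * k) : ℚ) = (n : ℚ) - ∑ p ∈ S.erase l, (1 : ℚ) / p - 1 / (l : ℚ) := by
    rw [hn]; ring
  have hcast : ((bernoulli (2 * k) : ℚ) : ℚ_[l]) =
      ((n : ℚ_[l]) - ∑ p ∈ S.erase l, (1 : ℚ_[l]) / (p : ℚ_[l])) + (-(1 / (l : ℚ_[l]))) := by
    rw [hB]; push_cast; ring
  have h1 : ‖(n : ℚ_[l]) - ∑ p ∈ S.erase l, (1 : ℚ_[l]) / (p : ℚ_[l])‖ ≤ 1 := by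
    rw [sub_eq_add_neg]
    refine (Padic.nonarchimedean _ _).trans (max_le (Padic.norm_int_le_one n) ?_)
    rw [norm_neg]
    refine norm_sum_le_one_bern _ _ fun p hp => ?_
    rw [Finset.mem_erase, hS, Finset.mem_filter] at hp
    obtain ⟨hpl, -, hpp, -⟩ := hp
    have : ‖(p : ℚ_[l])‖ = 1 := by
      rw [Padic.norm_natCast_eq_one_iff]
      exact (Nat.coprime_primes hl hpp).mpr (Ne.symm hpl)
    rw [norm_div, norm_one, this, div_one]
  have hlpos : (1 : ℝ) < (l : ℝ) := by exact_mod_cast hl.one_lt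
  have h2 : ‖-(1 / (l : ℚ_[l]))‖ = (l : ℝ) := by
    rw [norm_neg, norm_div, norm_one, Padic.norm_p, one_div, inv_inv]
  rw [hcast, Padic.add_eq_max_of_ne, h2, max_eq_right (h1.trans hlpos.le)]
  rw [h2]
  exact ne_of_lt (lt_of_le_of_lt h1 hlpos)

/-- the `q`-coefficients `-(2k/B_k)·m` (`k = l - 1`, `m` an `l`-integral rational) of `E_{l-1}`
are `l`-adically of norm `< 1`. -/
theorem norm_two_mul_div_bernoulli_lt_one (l : ℕ) [Fact l.Prime] (h3 : 3 ≤ l) (m : ℚ)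
    (hm : ‖(m : ℚ_[l])‖ ≤ 1) :
    ‖((2 * (l - 1 : ℕ) / bernoulli (l - 1) * m : ℚ) : ℚ_[l])‖ < 1 := by
  have hl : l.Prime := Fact.out
  have hlpos : (1 : ℝ) < (l : ℝ) := by exact_mod_cast hl.one_lt
  push_cast
  rw [norm_mul, norm_div, norm_mul, norm_bernoulli_pred l h3]
  have h2 : ‖(2 : ℚ_[l])‖ ≤ 1 := by
    have := Padic.norm_int_le_one (p := l) 2
    simpa using this
  have h3' : ‖((l - 1 : ℕ) : ℚ_[l])‖ ≤ 1 := by
    have := Padic.norm_int_le_one (p := l) ((l - 1 : ℕ) : ℤ)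
    rwa [Int.cast_natCast] at this
  have hl0 : (0 : ℝ) < l := by linarith
  calc ‖(2 : ℚ_[l])‖ * ‖((l - 1 : ℕ) : ℚ_[l])‖ / (l : ℝ) * ‖(m : ℚ_[l])‖
      ≤ 1 * 1 / (l : ℝ) * 1 := by
        gcongr
    _ < 1 := by
        rw [one_mul, mul_one, div_lt_one hl0]
        exact hlpos

end Fermat.Agent.S16.SD
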