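/-
T16 / SD-ALG (helper1): the algebraic core of the Swinnerton-Dyer argument.
`S = F[Q, R]` (`Q = X 0`, `R = X 1`, weights `4`, `6`), `F` a field of characteristic `l ≥ 5`,
`d` the derivation with `d Q = -4 R`, `d R = -6 Q ^ 2`.  If `A` is isobaric of weight `l - 1`,
`d (d A) = - Q A` and `Q ^ 3 - R ^ 2` does not divide `A`, then `A` is squarefree.
-/
import Mathlib

set_option autoImplicit false

open MvPolynomial

namespace Fermat.Agent.S16.SD

variable {F : Type*} [Field F]

local notation "S" => MvPolynomial (Fin 2) F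

/-! ### degrees and partial derivatives -/

theorem totalDegree_pderiv_lt {i : Fin 2} {f : S} (h : pderiv i f ≠ 0) :
    (pderiv i f).totalDegree < f.totalDegree := by
  obtain ⟨m, hm, hdeg⟩ : ∃ m ∈ (pderiv i f).support,
      (pderiv i f).totalDegree = m.sum fun _ e => e := by
    have hne : (pderiv i f).support.Nonempty := by
      rwa [Finset.nonempty_iff_ne_empty, Ne, support_eq_empty]
    obtain ⟨m, hm, hmax⟩ := Finset.exists_mem_eq_sup _ hne (fun s : Fin 2 →₀ ℕ => s.sum fun _ e => e)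
    exact ⟨m, hm, hmax⟩
  rw [mem_support_iff, coeff_pderiv] at hm
  have hm' : m + Finsupp.single i 1 ∈ f.support := by
    rw [mem_support_iff]
    intro h0
    rw [h0, zero_mul] at hm
    exact hm rfl
  have := le_totalDegree hm'
  rw [Finsupp.sum_add_index' (fun _ => rfl) (fun _ _ _ => rfl), Finsupp.sum_single_index rfl] at this
  omega

theorem pderiv_eq_zero_of_dvd {i : Fin 2} {f : S} (h : f ∣ pderiv i f) : pderiv i f = 0 := by
  by_contra h0
  obtain ⟨g, hg⟩ := h
  have hf : f ≠ 0 := by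
    rintro rfl
    rw [zero_mul] at hg
    exact h0 hg
  have hg0 : g ≠ 0 := by
    rintro rfl
    rw [mul_zero] at hg
    exact h0 hg
  have h1 := totalDegree_pderiv_lt h0
  rw [hg, totalDegree_mul_of_isDomain hf hg0] at h1
  omega

/-- a polynomial of total degree `< l` in characteristic `l` all of whose partial derivatives
vanish is constant -/
theorem eq_C_of_pderiv_eq_zero (l : ℕ) [CharP F l] {f : S} (hdeg : f.totalDegree < l)
    (h : ∀ i, pderiv i f = 0) : f = C (coeff 0 f) := by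
  ext m
  rw [coeff_C]
  split_ifs with hm
  · rw [hm]
  · by_contra hc
    have hms : m ∈ f.support := mem_support_iff.mpr hc
    have hle := le_totalDegree hms
    obtain ⟨i, hi⟩ : ∃ i, m i ≠ 0 := by
      by_contra hall
      push Not at hall
      apply hm
      ext i
      simp [hall i]
    set m' : Fin 2 →₀ ℕ := m - Finsupp.single i 1 with hm'
    have hm'i : m' i + 1 = m i := by
      rw [hm']
      simp only [Finsupp.coe_tsub, Pi.sub_apply, Finsupp.single_eq_same]
      omega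
    have hsub : m = m' + Finsupp.single i 1 := by
      ext j
      by_cases hj : j = i
      · subst hj
        simp only [Finsupp.coe_add, Pi.add_apply, Finsupp.single_eq_same]
        omega
      · rw [hm']
        simp [Ne.symm hj]
    have h1 := coeff_pderiv (i := i) f m'
    rw [h i, coeff_zero, ← hsub] at h1
    have hcast : (((m' i : ℕ) : F) + 1) = ((m i : ℕ) : F) := by
      rw [← hm'i]
      push_cast
      rfl
    rw [hcast] at h1
    have hmi : ((m i : ℕ) : F) ≠ 0 := by
      rw [Ne, CharP.cast_eq_zero_iff F l]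
      intro hdvd
      have hmil : m i ≤ m.sum fun _ e => e := by
        rw [Finsupp.sum_fintype _ _ (fun _ => rfl)]
        exact Finset.single_le_sum (f := fun j => m j) (fun _ _ => Nat.zero_le _) (Finset.mem_univ i)
      have := Nat.le_of_dvd (Nat.pos_of_ne_zero hi) hdvd
      omega
    rcases mul_eq_zero.mp h1.symm with h2 | h2
    · exact hc h2
    · exact hmi h2

/-! ### derivations and multiplicities -/

theorem derivation_pow_mul (D : Derivation F S S) (π u : S) (a : ℕ) :
    D (π ^ (a + 1) * u) = π ^ (a + 1) * D u + π ^ a * (C ((a + 1 : ℕ) : F) * (D π * u)) := by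
  rw [Derivation.leibniz, Derivation.leibniz_pow, smul_eq_mul, smul_eq_mul, Nat.add_sub_cancel,
    nsmul_eq_mul, smul_eq_mul]
  have : ((a + 1 : ℕ) : S) = C ((a + 1 : ℕ) : F) := by
    rw [map_natCast]
  rw [this]
  ring

/-- if `π ^ (a+1)` divides `D (π ^ (a+1) * u)`, `π ∤ u` and `a + 1` is invertible in `F`, then
`π ∣ D π` -/
theorem dvd_derivation_of_pow_dvd (D : Derivation F S S) {π u : S} (hπ : Prime π) {a : ℕ}
    (ha : ((a + 1 : ℕ) : F) ≠ 0) (hu : ¬ π ∣ u) (h : π ^ (a + 1) ∣ D (π ^ (a + 1) * u)) :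
    π ∣ D π := by
  rw [derivation_pow_mul] at h
  have h1 : π ^ (a + 1) ∣ π ^ a * (C ((a + 1 : ℕ) : F) * (D π * u)) :=
    (dvd_add_right (dvd_mul_right _ _)).mp h
  rw [pow_succ, mul_dvd_mul_iff_left (pow_ne_zero _ hπ.ne_zero)] at h1
  have hunit : IsUnit (C ((a + 1 : ℕ) : F) : S) := (isUnit_iff_ne_zero.mpr ha).map C
  rw [hunit.dvd_mul_left] at h1
  rcases hπ.dvd_or_dvd h1 with h2 | h2
  · exact h2
  · exact absurd h2 hu

/-! ### derivations in terms of partial derivatives -/

theorem derivation_eq_pderiv (D : Derivation F S S) (f : S) :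
    D f = D (X 0) * pderiv 0 f + D (X 1) * pderiv 1 f := by
  have h : D = D (X 0) • (pderiv 0 : Derivation F S S) + D (X 1) • (pderiv 1 : Derivation F S S) := by
    apply derivation_ext
    intro i
    fin_cases i
    · simp [pderiv_X]
    · simp [pderiv_X]
  conv_lhs => rw [h]
  simp

/-- Euler's identity for the weights `4, 6` -/
theorem euler_identity {f : S} {n : ℕ} (hf : IsWeightedHomogeneous ![4, 6] f n) :
    4 * X 0 * pderiv 0 f + 6 * X 1 * pderiv 1 f = C ((n : ℕ) : F) * f := by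
  have h := hf.sum_weight_X_mul_pderiv
  rw [Fin.sum_univ_two] at h
  simp only [Matrix.cons_val_zero, Matrix.cons_val_one, nsmul_eq_mul] at h
  have hn : ((n : ℕ) : S) = C ((n : ℕ) : F) := by rw [map_natCast]
  rw [← hn, ← h]
  push_cast
  ring

/-! ### degree bookkeeping -/

theorem totalDegree_pow_of_ne_zero {f : S} (hf : f ≠ 0) (a : ℕ) :
    (f ^ a).totalDegree = a * f.totalDegree := by
  induction a with
  | zero => simp
  | succ a ih =>
    rw [pow_succ, totalDegree_mul_of_isDomain (pow_ne_zero _ hf) hf, ih]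
    ring

theorem le_totalDegree_of_pow_dvd {π A : S} (hA : A ≠ 0) (hπ : 1 ≤ π.totalDegree) {a : ℕ}
    (h : π ^ a ∣ A) : a ≤ A.totalDegree := by
  have hπ0 : π ≠ 0 := by
    rintro rfl
    simp at hπ
  have h1 := totalDegree_le_of_dvd_of_isDomain h hA
  rw [totalDegree_pow_of_ne_zero hπ0] at h1
  nlinarith

theorem one_le_totalDegree_of_irreducible {π : S} (hπ : Irreducible π) : 1 ≤ π.totalDegree := by
  by_contra h
  have h0 : π.totalDegree = 0 := by omega
  rw [totalDegree_eq_zero_iff_eq_C] at h0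
  have hc : coeff 0 π ≠ 0 := by
    intro hc
    rw [hc, map_zero] at h0
    exact hπ.ne_zero h0
  apply hπ.not_isUnit
  rw [h0]
  exact (isUnit_iff_ne_zero.mpr hc).map C

theorem totalDegree_le_of_isobaric {A : S} {n : ℕ}
    (hA : IsWeightedHomogeneous ![4, 6] A n) : A.totalDegree ≤ n := by
  unfold totalDegree
  refine Finset.sup_le fun m hm => ?_
  have h := hA (mem_support_iff.mp hm)
  rw [Finsupp.weight_apply, Finsupp.sum_fintype _ _ (fun _ => by simp)] at h
  rw [Finsupp.sum_fintype _ _ (fun _ => rfl)]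
  simp only [Fin.sum_univ_two, Matrix.cons_val_zero, Matrix.cons_val_one, smul_eq_mul] at h ⊢
  omega

/-! ### the main lemma -/

/-- **Squarefreeness from the differential equation** (Swinnerton-Dyer). -/
theorem squarefree_of_derivation' (l : ℕ) [hl : Fact l.Prime] [CharP F l] (h5 : 5 ≤ l)
    (d : Derivation F S S) (hdQ : d (X 0) = -4 * X 1) (hdR : d (X 1) = -6 * X 0 ^ 2)
    (A : S) (hA : IsWeightedHomogeneous ![4, 6] A (l - 1)) (hA0 : A ≠ 0)
    (hddA : d (d A) = -(X 0 * A))
    (hΔ : ∀ π : S, Irreducible π → π ∣ A → ¬ π ∣ (X 0 ^ 3 - X 1 ^ 2)) : Squarefree A := by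
  rw [squarefree_iff_irreducible_sq_not_dvd_of_ne_zero hA0]
  intro π hπ hsq
  have hπp : Prime π := hπ.prime
  have hπ0 : π ≠ 0 := hπp.ne_zero
  obtain ⟨a, u, hu, hAu⟩ := WfDvdMonoid.max_power_factor hA0 hπ
  -- `a ≥ 2`
  obtain ⟨b, rfl⟩ : ∃ b, a = b + 2 := by
    rcases a with _ | _ | b
    · exfalso
      rw [pow_zero, one_mul] at hAu
      rw [hAu] at hsq
      exact hu (dvd_trans (dvd_mul_right π π) hsq)
    · exfalso
      rw [hAu, pow_one, mul_dvd_mul_iff_left hπ0] at hsq
      exact hu hsq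
    · exact ⟨b, rfl⟩
  -- degree bound
  have hπdeg := one_le_totalDegree_of_irreducible hπ
  have hAdeg : A.totalDegree ≤ l - 1 := totalDegree_le_of_isobaric hA
  have hl2 : 2 ≤ l := hl.out.two_le
  have hab : b + 2 ≤ A.totalDegree :=
    le_totalDegree_of_pow_dvd hA0 hπdeg (a := b + 2) ⟨u, hAu⟩
  have hcast : ∀ c : ℕ, 0 < c → c < l → ((c : ℕ) : F) ≠ 0 := by
    intro c hc0 hcl
    rw [Ne, CharP.cast_eq_zero_iff F l]
    intro hdvd
    have := Nat.le_of_dvd hc0 hdvd
    omega
  -- the Euler derivation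
  set E : Derivation F S S := (4 * X 0 : S) • (pderiv 0 : Derivation F S S) +
    (6 * X 1 : S) • (pderiv 1 : Derivation F S S) with hE
  have hEapp : ∀ f : S, E f = 4 * X 0 * pderiv 0 f + 6 * X 1 * pderiv 1 f := by
    intro f
    rw [hE]
    simp
  have hEA : E A = C (((l - 1 : ℕ) : ℕ) : F) * A := by
    rw [hEapp]
    exact euler_identity hA
  -- `π ∣ E π`
  have hπE : π ∣ E π := by
    refine dvd_derivation_of_pow_dvd E hπp (a := b + 1) (hcast _ (by omega) (by omega)) hu ?_
    rw [← hAu, hEA]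
    exact Dvd.dvd.mul_left ⟨u, hAu⟩ _
  -- `π ∣ d π`
  have hπd : π ∣ d π := by
    have h1 := derivation_pow_mul d π u (b + 1)
    rw [← hAu] at h1
    set w : S := π * d u + C (((b + 1 + 1 : ℕ) : ℕ) : F) * (d π * u) with hw
    have hB : d A = π ^ (b + 1) * w := by
      rw [h1, hw]
      ring
    by_cases hπw : π ∣ w
    · -- then `π ∣ d π * u`
      have h2 : π ∣ C (((b + 1 + 1 : ℕ) : ℕ) : F) * (d π * u) := by
        have := (dvd_add_right (dvd_mul_right π (d u))).mp hπw
        exact this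
      have hunit : IsUnit (C (((b + 1 + 1 : ℕ) : ℕ) : F) : S) :=
        (isUnit_iff_ne_zero.mpr (hcast _ (by omega) (by omega))).map C
      rw [hunit.dvd_mul_left] at h2
      rcases hπp.dvd_or_dvd h2 with h3 | h3
      · exact h3
      · exact absurd h3 hu
    · refine dvd_derivation_of_pow_dvd d hπp (a := b) (hcast _ (by omega) (by omega)) hπw ?_
      rw [← hB, hddA, hAu]
      refine Dvd.dvd.neg_right ?_
      refine Dvd.dvd.mul_left ?_ _
      exact Dvd.dvd.mul_right (pow_dvd_pow π (by omega)) _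
  -- Cramer
  have hdπ := derivation_eq_pderiv d π
  rw [hdQ, hdR] at hdπ
  have hEπ := hEapp π
  have hc1 : 6 * X 1 * d π + 6 * X 0 ^ 2 * E π = 24 * (X 0 ^ 3 - X 1 ^ 2) * pderiv 0 π := by
    rw [hdπ, hEπ]
    ring
  have hc2 : 4 * X 0 * d π + 4 * X 1 * E π = -(24 * (X 0 ^ 3 - X 1 ^ 2) * pderiv 1 π) := by
    rw [hdπ, hEπ]
    ring
  have h24 : IsUnit (24 : S) := by
    have : (24 : S) = C ((24 : ℕ) : F) := by
      rw [map_natCast]
      norm_num
    rw [this]
    refine (isUnit_iff_ne_zero.mpr ?_).map C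
    rw [Ne, CharP.cast_eq_zero_iff F l]
    intro hdvd
    have h24' : (24 : ℕ) = 2 ^ 3 * 3 := by norm_num
    rw [h24'] at hdvd
    rcases (Nat.Prime.dvd_mul hl.out).mp hdvd with h2 | h3
    · have := Nat.le_of_dvd (by norm_num) (hl.out.dvd_of_dvd_pow h2)
      omega
    · have := Nat.le_of_dvd (by norm_num) h3
      omega
  have hd1 : π ∣ (X 0 ^ 3 - X 1 ^ 2) * pderiv 0 π := by
    have : π ∣ 24 * (X 0 ^ 3 - X 1 ^ 2) * pderiv 0 π := by
      rw [← hc1]
      exact dvd_add (Dvd.dvd.mul_left hπd _) (Dvd.dvd.mul_left hπE _)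
    rwa [mul_assoc, h24.dvd_mul_left] at this
  have hd2 : π ∣ (X 0 ^ 3 - X 1 ^ 2) * pderiv 1 π := by
    have : π ∣ 24 * (X 0 ^ 3 - X 1 ^ 2) * pderiv 1 π := by
      rw [← dvd_neg, ← hc2]
      exact dvd_add (Dvd.dvd.mul_left hπd _) (Dvd.dvd.mul_left hπE _)
    rwa [mul_assoc, h24.dvd_mul_left] at this
  have hπΔ : ¬ π ∣ (X 0 ^ 3 - X 1 ^ 2 : S) := hΔ π hπ ⟨π ^ (b + 1) * u, by rw [hAu]; ring⟩
  have hp0 : pderiv 0 π = 0 :=
    pderiv_eq_zero_of_dvd ((hπp.dvd_or_dvd hd1).resolve_left hπΔ)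
  have hp1 : pderiv 1 π = 0 :=
    pderiv_eq_zero_of_dvd ((hπp.dvd_or_dvd hd2).resolve_left hπΔ)
  have hπl : π.totalDegree < l := by
    have := totalDegree_le_of_dvd_of_isDomain (f := π) (g := A)
      ⟨π ^ (b + 1) * u, by rw [hAu]; ring⟩ hA0
    omega
  have hconst := eq_C_of_pderiv_eq_zero l hπl (fun i => by fin_cases i <;> assumption)
  have := one_le_totalDegree_of_irreducible hπ
  rw [hconst, totalDegree_C] at this
  omega

/-! ### `Q ^ 3 - R ^ 2` is irreducible -/

theorem irreducible_cube_sub_sq : Irreducible (X 0 ^ 3 - X 1 ^ 2 : S) := by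
  rw [← MulEquiv.irreducible_iff (MvPolynomial.finSuccEquiv F 1)]
  have h1 : (MvPolynomial.finSuccEquiv F 1) (X 0 ^ 3 - X 1 ^ 2 : S) =
      Polynomial.X ^ 3 - Polynomial.C ((X 0 : MvPolynomial (Fin 1) F) ^ 2) := by
    rw [map_sub, map_pow, map_pow, finSuccEquiv_X_zero]
    have : (1 : Fin 2) = Fin.succ (0 : Fin 1) := rfl
    rw [this, finSuccEquiv_X_succ, map_pow]
  rw [h1]
  have hmonic : (Polynomial.X ^ 3 - Polynomial.C ((X 0 : MvPolynomial (Fin 1) F) ^ 2)).Monic :=
    Polynomial.monic_X_pow_sub_C _ (by norm_num)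
  rw [Polynomial.Monic.irreducible_iff_roots_eq_zero_of_degree_le_three hmonic
    (by rw [Polynomial.natDegree_X_pow_sub_C]; norm_num)
    (by rw [Polynomial.natDegree_X_pow_sub_C])]
  rw [Multiset.eq_zero_iff_forall_notMem]
  intro r hr
  rw [Polynomial.mem_roots hmonic.ne_zero, Polynomial.IsRoot.def, Polynomial.eval_sub,
    Polynomial.eval_pow, Polynomial.eval_X, Polynomial.eval_C, sub_eq_zero] at hr
  have hX : (X 0 : MvPolynomial (Fin 1) F) ≠ 0 := X_ne_zero 0
  have hr0 : r ≠ 0 := by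
    rintro rfl
    rw [zero_pow (by norm_num)] at hr
    exact pow_ne_zero 2 hX hr.symm
  have hdeg := congrArg totalDegree hr
  have h3 : (r ^ 3).totalDegree = 3 * r.totalDegree := by
    rw [pow_succ, pow_succ, pow_one, totalDegree_mul_of_isDomain (mul_ne_zero hr0 hr0) hr0,
      totalDegree_mul_of_isDomain hr0 hr0]
    ring
  have h2 : ((X 0 : MvPolynomial (Fin 1) F) ^ 2).totalDegree = 2 := by
    rw [pow_succ, pow_one, totalDegree_mul_of_isDomain hX hX, totalDegree_X]
  rw [h3, h2] at hdeg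
  omega

/-- **Squarefreeness from the differential equation** (Swinnerton-Dyer), final form. -/
theorem squarefree_of_derivation (l : ℕ) [Fact l.Prime] [CharP F l] (h5 : 5 ≤ l)
    (d : Derivation F S S) (hdQ : d (X 0) = -4 * X 1) (hdR : d (X 1) = -6 * X 0 ^ 2)
    (A B : S) (hA : IsWeightedHomogeneous ![4, 6] A (l - 1)) (hA0 : A ≠ 0)
    (hdA : d A = B) (hdB : d B = -(X 0 * A))
    (hΔ : ¬ (X 0 ^ 3 - X 1 ^ 2 : S) ∣ A) : Squarefree A := by
  refine squarefree_of_derivation' l h5 d hdQ hdR A hA hA0 (by rw [hdA, hdB]) ?_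
  intro π hπ hπA hπΔ
  have hass := hπ.associated_of_dvd irreducible_cube_sub_sq hπΔ
  exact hΔ (hass.symm.dvd.trans hπA)

/-! ### multiplicities -/

/-- (ALG-2) if `Φ ^ n = c A ^ k` with `A` squarefree, not a unit, then `n ∣ k`. -/
theorem dvd_of_pow_eq_mul_pow (n k : ℕ) (A Φ : S) (hA : Squarefree A) (hAu : ¬ IsUnit A)
    (hA0 : A ≠ 0) (c : F) (hc : c ≠ 0) (h : Φ ^ n = C c * A ^ k) : n ∣ k := by
  obtain ⟨π, hπ, hπA⟩ := WfDvdMonoid.exists_irreducible_factor hAu hA0
  have hπp : Prime π := hπ.prime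
  have h1 : emultiplicity π A = 1 := by
    have : emultiplicity π A = ((1 : ℕ) : ℕ∞) := by
      rw [emultiplicity_eq_coe]
      refine ⟨by simpa using hπA, ?_⟩
      intro h2
      have := hA π (by simpa [pow_two] using h2)
      exact hπ.not_isUnit this
    simpa using this
  have hC : emultiplicity π (C c : S) = 0 := by
    rw [emultiplicity_eq_zero]
    intro hd
    have hu : IsUnit (C c : S) := (isUnit_iff_ne_zero.mpr hc).map C
    exact hπ.not_isUnit (isUnit_of_dvd_unit hd hu)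
  have h2 := congrArg (emultiplicity π) h
  rw [emultiplicity_pow hπp, emultiplicity_mul hπp, emultiplicity_pow hπp, hC, h1, zero_add,
    mul_one] at h2
  by_cases hm : emultiplicity π Φ = ⊤
  · rw [hm] at h2
    rcases Nat.eq_zero_or_pos n with hn | hn
    · subst hn
      rw [Nat.cast_zero, zero_mul] at h2
      have : k = 0 := by exact_mod_cast h2.symm
      rw [this]
    · exfalso
      have : ((n : ℕ) : ℕ∞) * ⊤ = ⊤ := ENat.mul_top (by exact_mod_cast hn.ne')
      rw [this] at h2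
      exact ENat.top_ne_natCast _ h2
  · obtain ⟨m, hm'⟩ := ENat.ne_top_iff_exists.mp hm
    rw [← hm'] at h2
    have : n * m = k := by
      have h3 : (((n * m : ℕ)) : ℕ∞) = (k : ℕ∞) := by
        rw [← h2]
        push_cast
        rfl
      exact_mod_cast h3
    exact ⟨m, this.symm⟩

end Fermat.Agent.S16.SD
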