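/-
T16 / SD-ALG (helper1), complement: a nonzero isobaric polynomial of positive weight is not a unit.
-/
import Fermat.Agent.S16.SD.Squarefree

set_option autoImplicit false

open MvPolynomial

namespace Fermat.Agent.S16.SD

variable {F : Type*} [Field F]

theorem not_isUnit_of_isobaric {A : MvPolynomial (Fin 2) F} {n : ℕ} (hn : 0 < n)
    (hA : IsWeightedHomogeneous ![4, 6] A n) (hA0 : A ≠ 0) : ¬ IsUnit A := by
  intro hu
  rw [isUnit_iff_eq_C_of_isReduced] at hu
  obtain ⟨r, -, rfl⟩ := hu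
  have hr : r ≠ 0 := by
    rintro rfl
    exact hA0 (map_zero _)
  have h := hA (d := 0) (by simpa using hr)
  simp at h
  omega

/-- the conclusion of the Swinnerton-Dyer argument in polynomial form: if `Φ ^ (l-1) = c A ^ k`
with `A` isobaric of weight `l - 1` as in `squarefree_of_derivation`, then `(l - 1) ∣ k`. -/
theorem sub_one_dvd_of_pow_eq (l : ℕ) [Fact l.Prime] [CharP F l] (h5 : 5 ≤ l)
    (d : Derivation F (MvPolynomial (Fin 2) F) (MvPolynomial (Fin 2) F))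
    (hdQ : d (X 0) = -4 * X 1) (hdR : d (X 1) = -6 * X 0 ^ 2)
    (A B : MvPolynomial (Fin 2) F) (hA : IsWeightedHomogeneous ![4, 6] A (l - 1)) (hA0 : A ≠ 0)
    (hdA : d A = B) (hdB : d B = -(X 0 * A))
    (hΔ : ¬ (X 0 ^ 3 - X 1 ^ 2 : MvPolynomial (Fin 2) F) ∣ A)
    (k : ℕ) (Φ : MvPolynomial (Fin 2) F) (c : F) (hc : c ≠ 0)
    (h : Φ ^ (l - 1) = C c * A ^ k) : (l - 1) ∣ k :=
  dvd_of_pow_eq_mul_pow (l - 1) k A Φ
    (squarefree_of_derivation l h5 d hdQ hdR A B hA hA0 hdA hdB hΔ)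
    (not_isUnit_of_isobaric (by omega) hA hA0) hA0 c hc h

end Fermat.Agent.S16.SD
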